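/-
[46-S1] (helper67): the diagram chase behind (S1), in pure abelian-group form.

Model-independent: every cohomology group is an abstract additive commutative group and every
exactness statement of the two long exact sequences

* Kummer   `0 → Z → E -p→ E → 0`   (pieces `H¹(E) -δK→ H²(Z) -ιZ→ H²(E) -p→ H²(E)`),
* idele    `0 → E → J → C → 0`     (pieces `H¹(C) -δI→ H²(E) -iE→ H²(J) -πJ→ H²(C)`),

is a named hypothesis.  The local side is a finite family `w : W` of groups `YZ w` (`= H²(G_w, μ_p)`)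
and `YE w` (`= H²(G_w, \bar L_w^×)`), with the local Kummer maps `κ w : YZ w → YE w`, localisation
maps `locZ w : H²(Z) → YZ w`, `locJ w : H²(J) → YE w`, and one commutative square per `w`.

Main results:

* `locZ_eq_zero_iff`   : `ker(loc) = δK(H¹(E))`                     (the "kernel half" of (S1));
* `exists_locZ_eq_iff` : `im(loc) = ker(∑ inv_w ∘ κ_w)`             (the "cokernel half" of (S1));
* `exists_sum_inv_eq`  : `∑ inv_w ∘ κ_w` is onto the `p`-torsion of the target as soon as one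
  local invariant is.
-/
import Mathlib

set_option autoImplicit false

namespace Fermat.Agent.S55.S1_67.Algebra

section Kernel

variable {H1E H1C H2Z H2E H2J : Type*}
  [AddCommGroup H1E] [AddCommGroup H1C] [AddCommGroup H2Z] [AddCommGroup H2E] [AddCommGroup H2J]
variable (p : ℕ)
variable (δK : H1E →+ H2Z) (ιZ : H2Z →+ H2E) (δI : H1C →+ H2E) (iE : H2E →+ H2J)
variable {W : Type*} {YZ YE : W → Type*} [∀ w, AddCommGroup (YZ w)] [∀ w, AddCommGroup (YE w)]
variable (κ : ∀ w, YZ w →+ YE w) (locZ : ∀ w, H2Z →+ YZ w) (locJ : ∀ w, H2J →+ YE w)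

/-- `H²(E) → H²(J)` is injective on `p`-torsion as soon as `H¹(C)` has no `p`-torsion and
`δI : H¹(C) → H²(E)` is injective (i.e. `H¹(J) → H¹(C)` is zero, e.g. `H¹(J) = 0`). -/
theorem iE_injective_on_torsion
    (hI1 : Function.Exact δI iE)
    (hδI : Function.Injective δI)
    (hC1 : ∀ c : H1C, p • c = 0 → c = 0)
    (e : H2E) (hpe : p • e = 0) (he : iE e = 0) : e = 0 := by
  obtain ⟨c, rfl⟩ := (hI1 e).1 he
  have hc : δI (p • c) = 0 := by rw [map_nsmul]; exact hpe
  have hc' : p • c = 0 := hδI (by rw [hc, map_zero])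
  rw [hC1 c hc', map_zero]

/-- **Kernel half of (S1).**  A class of `H²(Z)` is locally trivial everywhere iff it lies in the
image of the Kummer connecting map `δK : H¹(E) → H²(Z)`. -/
theorem locZ_eq_zero_iff
    (hK1 : Function.Exact δK ιZ)
    (hI1 : Function.Exact δI iE)
    (hpZ : ∀ x : H2Z, p • x = 0)
    (hδI : Function.Injective δI)
    (hC1 : ∀ c : H1C, p • c = 0 → c = 0)
    (hκ : ∀ w, Function.Injective (κ w))
    (hcomm : ∀ w x, κ w (locZ w x) = locJ w (iE (ιZ x)))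
    (hJ2 : ∀ y : H2J, p • y = 0 → (∀ w, locJ w y = 0) → y = 0)
    (x : H2Z) : (∀ w, locZ w x = 0) ↔ x ∈ Set.range δK := by
  constructor
  · intro hx
    have hy : iE (ιZ x) = 0 := by
      apply hJ2
      · rw [← map_nsmul, ← map_nsmul, hpZ x, map_zero, map_zero]
      · intro w
        rw [← hcomm w x, hx w, map_zero]
    have hpe : p • ιZ x = 0 := by rw [← map_nsmul, hpZ x, map_zero]
    have : ιZ x = 0 := iE_injective_on_torsion p δI iE hI1 hδI hC1 _ hpe hy
    exact (hK1 x).1 this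
  · rintro ⟨a, rfl⟩ w
    apply hκ w
    rw [hcomm w, hK1.apply_apply_eq_zero a, map_zero, map_zero, map_zero]

end Kernel

section Cokernel

variable {H1C H2Z H2E H2J H2C : Type*}
  [AddCommGroup H1C] [AddCommGroup H2Z] [AddCommGroup H2E] [AddCommGroup H2J] [AddCommGroup H2C]
variable (p : ℕ)
variable (ιZ : H2Z →+ H2E) (δI : H1C →+ H2E) (iE : H2E →+ H2J) (πJ : H2J →+ H2C)
variable {W : Type*} [Fintype W] {YZ YE : W → Type*}
  [∀ w, AddCommGroup (YZ w)] [∀ w, AddCommGroup (YE w)]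
variable (κ : ∀ w, YZ w →+ YE w) (locZ : ∀ w, H2Z →+ YZ w) (locJ : ∀ w, H2J →+ YE w)
variable {T : Type*} [AddCommGroup T] (inv : ∀ w, YE w →+ T) (invC : H2C →+ T)

/-- Reciprocity: the sum of the local invariants vanishes on the image of `H²(Z)`. -/
theorem sum_inv_locZ_eq_zero
    (hI2 : Function.Exact iE πJ)
    (hcomm : ∀ w x, κ w (locZ w x) = locJ w (iE (ιZ x)))
    (hrec : ∀ y : H2J, invC (πJ y) = ∑ w, inv w (locJ w y))
    (x : H2Z) : ∑ w, inv w (κ w (locZ w x)) = 0 := by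
  have h := hrec (iE (ιZ x))
  rw [hI2.apply_apply_eq_zero, map_zero] at h
  rw [h]
  exact Finset.sum_congr rfl fun w _ => by rw [hcomm w x]

/-- **Cokernel half of (S1).**  A family of local classes `ξ w ∈ H²(G_w, μ_p)` comes from a global
class of `H²(Z)` iff the sum of its local invariants vanishes. -/
theorem exists_locZ_eq_iff
    (hK2 : ∀ e : H2E, p • e = 0 → e ∈ Set.range ιZ)
    (hI1 : Function.Exact δI iE) (hI2 : Function.Exact iE πJ)
    (hC1div : ∀ c : H1C, ∃ c', p • c' = c)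
    (hpYZ : ∀ w (ξ : YZ w), p • ξ = 0)
    (hκ : ∀ w, Function.Injective (κ w))
    (hcomm : ∀ w x, κ w (locZ w x) = locJ w (iE (ιZ x)))
    (hrec : ∀ y : H2J, invC (πJ y) = ∑ w, inv w (locJ w y))
    (hinvC : ∀ c : H2C, p • c = 0 → invC c = 0 → c = 0)
    (hJsurj : ∀ η : ∀ w, YE w, (∀ w, p • η w = 0) →
      ∃ y : H2J, p • y = 0 ∧ ∀ w, locJ w y = η w)
    (ξ : ∀ w, YZ w) :
    (∃ x : H2Z, ∀ w, locZ w x = ξ w) ↔ ∑ w, inv w (κ w (ξ w)) = 0 := by
  constructor
  · rintro ⟨x, hx⟩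
    have := sum_inv_locZ_eq_zero ιZ iE πJ κ locZ locJ inv invC hI2 hcomm hrec x
    simpa only [hx] using this
  · intro hξ
    obtain ⟨y, hpy, hy⟩ := hJsurj (fun w => κ w (ξ w)) (fun w => by
      rw [← map_nsmul, hpYZ w, map_zero])
    have hπy : πJ y = 0 := by
      apply hinvC
      · rw [← map_nsmul, hpy, map_zero]
      · rw [hrec y]
        simpa only [hy] using hξ
    obtain ⟨e, rfl⟩ := (hI2 y).1 hπy
    have hpe : iE (p • e) = 0 := by rw [map_nsmul]; exact hpy
    obtain ⟨c, hc⟩ := (hI1 (p • e)).1 hpe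
    obtain ⟨c', rfl⟩ := hC1div c
    have he' : p • (e - δI c') = 0 := by
      rw [smul_sub, ← map_nsmul, hc, sub_self]
    obtain ⟨x, hx⟩ := hK2 _ he'
    refine ⟨x, fun w => hκ w ?_⟩
    rw [hcomm w x, hx, map_sub, hI1.apply_apply_eq_zero, sub_zero, hy w]

/-- The sum of local invariants is onto the `p`-torsion of the target as soon as one local
invariant is. -/
theorem exists_sum_inv_eq [DecidableEq W] (w₀ : W)
    (h : ∀ t : T, p • t = 0 → ∃ ξ₀ : YZ w₀, inv w₀ (κ w₀ ξ₀) = t)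
    (t : T) (ht : p • t = 0) : ∃ ξ : ∀ w, YZ w, ∑ w, inv w (κ w (ξ w)) = t := by
  obtain ⟨ξ₀, hξ₀⟩ := h t ht
  refine ⟨Pi.single w₀ ξ₀, ?_⟩
  rw [Finset.sum_eq_single w₀]
  · rw [Pi.single_eq_same, hξ₀]
  · intro w _ hw
    rw [Pi.single_eq_of_ne hw, map_zero, map_zero]
  · intro hw
    exact absurd (Finset.mem_univ w₀) hw

end Cokernel

end Fermat.Agent.S55.S1_67.Algebra
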