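/-
[46-S1] (helper67): (S1) over the level-cohomology API `Profin15.LevelStr` (helper15).

Setting: a group `G` with a level structure `𝒰`, smooth modules and two short exact sequences

* Kummer  `0 → Z -ι→ E -pw→ E → 0`  with `pw e = p • e`,
* idele   `0 → E -i→ J -π→ C → 0`.

We prove, from the long exact sequences `Profin15.LevelStr.ShortExact.δ₀/δ₁`:

* `kummer_δ₁_eq_zero_iff` : `δ₁ a = 0 ↔ a ∈ p • H¹(E)`  (so `range δ₁ ≃ H¹(E)/p`);
* `idele_δ₀_surjective`, `idele_δ₀_eq_zero_iff` : `H¹(E) = H⁰(C) / im H⁰(J)` when `H¹(J) = 0`;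
* `H1_torsion` : level `H¹` of a smooth module is torsion; hence "no `p`-torsion ⇒ `p`-divisible";
* `sha2_iff` : the kernel half of (S1): `ker(loc) = range δ₁`;
* `range_loc_iff` : the cokernel half of (S1): `im(loc) = ker(∑ inv_w ∘ κ_w)`.

The local side is abstract (see `Algebra.lean`).
-/
import Fermat.Agent.S55.Profin15.LES1
import Fermat.Agent.S55.S1_67.Algebra

set_option autoImplicit false
set_option linter.style.haveILetI false

universe u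

open CategoryTheory groupCohomology
open Fermat.Agent.S55.Profin15 Fermat.Agent.S55.Profin15.LevelStr

namespace Fermat.Agent.S55.S1_67.Level

variable {k G : Type u} [CommRing k] [Group G] (𝒰 : LevelStr G)

section Scalar

variable (M : Rep.{u} k G)

/-- multiplication by a natural number on `H¹` is induced by multiplication on coefficients -/
lemma H1map_eq_nsmul (p : ℕ) (ψ : M →ₗ[k] M) (hψ : ∀ m, ψ m = p • m) (hψe : IsEquivariant ψ)
    (x : 𝒰.H1 M) : 𝒰.H1map ψ hψe x = p • x := by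
  obtain ⟨z, rfl⟩ := Submodule.Quotient.mk_surjective _ x
  rw [← Submodule.Quotient.mk_smul]
  show 𝒰.H1π M (𝒰.Z₁map ψ hψe z) = 𝒰.H1π M (p • z)
  congr 1
  apply Subtype.ext
  funext g
  show ψ ((z : G → M) g) = (p • (z : G → M)) g
  rw [hψ, Pi.smul_apply]

/-- multiplication by a natural number on `H²` is induced by multiplication on coefficients -/
lemma H2map_eq_nsmul (p : ℕ) (ψ : M →ₗ[k] M) (hψ : ∀ m, ψ m = p • m) (hψe : IsEquivariant ψ)
    (x : 𝒰.H2 M) : 𝒰.H2map ψ hψe x = p • x := by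
  obtain ⟨z, rfl⟩ := Submodule.Quotient.mk_surjective _ x
  rw [← Submodule.Quotient.mk_smul]
  show 𝒰.H2π M (𝒰.Z₂map ψ hψe z) = 𝒰.H2π M (p • z)
  congr 1
  apply Subtype.ext
  funext g
  show ψ ((z : G × G → M) g) = (p • (z : G × G → M)) g
  rw [hψ, Pi.smul_apply]

/-- `H²` of a module killed by `p` is killed by `p`. -/
lemma nsmul_H2_eq_zero (p : ℕ) (hM : ∀ m : M, p • m = 0) (x : 𝒰.H2 M) : p • x = 0 := by
  obtain ⟨z, rfl⟩ := Submodule.Quotient.mk_surjective _ x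
  rw [← Submodule.Quotient.mk_smul]
  have : p • z = 0 := by
    apply Subtype.ext
    funext g
    show (p • (z : G × G → M)) g = 0
    rw [Pi.smul_apply, hM]
  rw [this, Submodule.Quotient.mk_zero]

end Scalar

section Torsion

variable {M : Rep.{u} k G}

/-- Level `H¹` of a module is torsion: a level cocycle constant modulo `V` is killed by `[G : V]`
up to a coboundary. -/
theorem H1_torsion (x : 𝒰.H1 M) : ∃ n : ℕ, 0 < n ∧ n • x = 0 := by
  classical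
  obtain ⟨z, rfl⟩ := Submodule.Quotient.mk_surjective _ x
  obtain ⟨hcoc, V, hV, hconst⟩ := z.2
  haveI := 𝒰.finiteIndex V hV
  haveI : Finite (G ⧸ V) := Subgroup.finite_quotient_of_finiteIndex
  haveI : Fintype (G ⧸ V) := Fintype.ofFinite _
  set c : G → M := (z : G → M) with hc
  have hcoc' : ∀ g h : G, c (g * h) = M.ρ g (c h) + c g := (mem_cocycles₁_iff c).1 hcoc
  -- `c` descends to `G ⧸ V`
  let cbar : G ⧸ V → M := Quotient.lift c (by
    intro a b hab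
    have hab' : a⁻¹ * b ∈ V := QuotientGroup.leftRel_apply.1 hab
    have := hconst a (a⁻¹ * b) hab'
    rw [mul_inv_cancel_left] at this
    exact this.symm)
  have hcbar : ∀ g : G, cbar (QuotientGroup.mk g) = c g := fun g => rfl
  have hact : ∀ (g : G) (t : G ⧸ V), cbar (g • t) = M.ρ g (cbar t) + c g := by
    intro g t
    induction t using QuotientGroup.induction_on with
    | H h =>
      show cbar (QuotientGroup.mk (g * h)) = _
      rw [hcbar, hcbar, hcoc']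
  have hsum : ∀ g : G, (∑ t : G ⧸ V, cbar t) =
      M.ρ g (∑ t : G ⧸ V, cbar t) + (Fintype.card (G ⧸ V)) • c g := by
    intro g
    have h1 : ∑ t : G ⧸ V, cbar (g • t) = ∑ t : G ⧸ V, cbar t :=
      Fintype.sum_equiv (MulAction.toPerm g) _ _ (fun t => rfl)
    conv_lhs => rw [← h1]
    simp only [hact, Finset.sum_add_distrib, Finset.sum_const, Finset.card_univ, map_sum]
  refine ⟨Fintype.card (G ⧸ V), Fintype.card_pos, ?_⟩
  rw [← Submodule.Quotient.mk_smul, Submodule.Quotient.mk_eq_zero, Submodule.mem_comap]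
  refine ⟨-(∑ t : G ⧸ V, cbar t), ?_⟩
  funext g
  show (d₀₁ M).hom (-(∑ t : G ⧸ V, cbar t)) g = (Fintype.card (G ⧸ V) • (z : G → M)) g
  rw [d₀₁_hom_apply, Pi.smul_apply, map_neg, ← hc, neg_sub_neg, sub_eq_iff_eq_add, add_comm]
  exact hsum g

/-- In a torsion group without `p`-torsion (`p` prime), every element is divisible by `p`. -/
theorem exists_nsmul_eq_of_torsion {A : Type*} [AddCommGroup A] {p : ℕ} (hp : p.Prime)
    (hA : ∀ a : A, p • a = 0 → a = 0) (x : A) (n : ℕ) (hn : 0 < n) (hx : n • x = 0) :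
    ∃ y : A, p • y = x := by
  have hfin : IsOfFinAddOrder x := isOfFinAddOrder_iff_nsmul_eq_zero.2 ⟨n, hn, hx⟩
  have hd : 0 < addOrderOf x := hfin.addOrderOf_pos
  have hnd : ¬ p ∣ addOrderOf x := by
    rintro ⟨d', hd'⟩
    have h1 : p • (d' • x) = 0 := by
      rw [← mul_nsmul', ← hd']
      exact addOrderOf_nsmul_eq_zero x
    have h2 : d' • x = 0 := hA _ h1
    have h3 : addOrderOf x ∣ d' := addOrderOf_dvd_of_nsmul_eq_zero h2
    have hd'pos : 0 < d' := by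
      rcases Nat.eq_zero_or_pos d' with h | h
      · rw [h, mul_zero] at hd'; omega
      · exact h
    have h4 : addOrderOf x ≤ d' := Nat.le_of_dvd hd'pos h3
    have h5 : d' < addOrderOf x := by
      rw [hd']
      calc d' = 1 * d' := (one_mul _).symm
        _ < p * d' := Nat.mul_lt_mul_of_pos_right hp.one_lt hd'pos
    omega
  have hcop : Nat.Coprime p (addOrderOf x) := (Nat.Prime.coprime_iff_not_dvd hp).2 hnd
  rcases Nat.lt_or_ge 1 (addOrderOf x) with h1 | h1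
  · obtain ⟨u, -, hu⟩ := Nat.exists_mul_mod_eq_one_of_coprime hcop h1
    refine ⟨u • x, ?_⟩
    rw [← mul_nsmul', ← mod_addOrderOf_nsmul, hu, one_nsmul]
  · have : addOrderOf x = 1 := by omega
    rw [AddMonoid.addOrderOf_eq_one_iff] at this
    exact ⟨0, by rw [this, smul_zero]⟩

/-- Level `H¹` without `p`-torsion is `p`-divisible. -/
theorem H1_divisible_of_no_torsion {p : ℕ} (hp : p.Prime)
    (h : ∀ c : 𝒰.H1 M, p • c = 0 → c = 0) (c : 𝒰.H1 M) : ∃ c' : 𝒰.H1 M, p • c' = c := by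
  obtain ⟨n, hn, hx⟩ := H1_torsion 𝒰 c
  exact exists_nsmul_eq_of_torsion hp h c n hn hx

end Torsion

section Main

variable {Z E J C : Rep.{u} k G}
variable {p : ℕ} {ι : Z →ₗ[k] E} {pw : E →ₗ[k] E} {i : E →ₗ[k] J} {π : J →ₗ[k] C}

/-- The Kummer module `Z` is killed by `p`. -/
lemma kummer_nsmul_eq_zero (hK : ShortExact ι pw) (hpw : ∀ e, pw e = p • e) (z : Z) :
    p • z = 0 := by
  apply hK.injective
  rw [map_nsmul, ← hpw, hK.comp_eq_zero, map_zero]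

/-- exactness of the Kummer sequence at `H¹(E)`: `ker δ₁ = p • H¹(E)`. -/
theorem kummer_δ₁_eq_zero_iff (hK : ShortExact ι pw) (hpw : ∀ e, pw e = p • e)
    (hE : 𝒰.IsSmooth E) (a : 𝒰.H1 E) :
    hK.δ₁ 𝒰 hE a = 0 ↔ ∃ b : 𝒰.H1 E, p • b = a := by
  rw [hK.exact_H1map_δ₁ 𝒰 hE a]
  constructor
  · rintro ⟨b, rfl⟩
    exact ⟨b, (H1map_eq_nsmul 𝒰 E p pw hpw hK.equivariant_right b).symm⟩
  · rintro ⟨b, rfl⟩
    exact ⟨b, H1map_eq_nsmul 𝒰 E p pw hpw hK.equivariant_right b⟩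

/-- exactness of the Kummer sequence at `H²(E)`: the `p`-torsion of `H²(E)` is the image of
`H²(Z)`. -/
theorem kummer_H2_torsion_iff (hK : ShortExact ι pw) (hpw : ∀ e, pw e = p • e)
    (hE : 𝒰.IsSmooth E) (e : 𝒰.H2 E) :
    p • e = 0 ↔ e ∈ Set.range (𝒰.H2map ι hK.equivariant_left) := by
  rw [← H2map_eq_nsmul 𝒰 E p pw hpw hK.equivariant_right e]
  exact hK.exact_H2map_H2map 𝒰 hE e

/-- `H¹(E) = H⁰(C) / im H⁰(J)`, surjectivity (needs `H¹(J) = 0`, semi-local Hilbert 90). -/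
theorem idele_δ₀_surjective (hI : ShortExact i π) (hJ : 𝒰.IsSmooth J)
    (hJ1 : ∀ x : 𝒰.H1 J, x = 0) :
    Function.Surjective (hI.δ₀ 𝒰 hJ) := by
  intro a
  exact (hI.exact_δ₀_H1map 𝒰 hJ a).1 (hJ1 _)

/-- `H¹(E) = H⁰(C) / im H⁰(J)`, kernel. -/
theorem idele_δ₀_eq_zero_iff (hI : ShortExact i π) (hJ : 𝒰.IsSmooth J) (c : ↥(LevelStr.H0 C)) :
    hI.δ₀ 𝒰 hJ c = 0 ↔ c ∈ Set.range (H0map π hI.equivariant_right) :=
  hI.exact_H0map_δ₀ 𝒰 hJ c

/-- `δ₁ : H¹(C) → H²(E)` is injective when `H¹(J) = 0`. -/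
theorem idele_δ₁_injective (hI : ShortExact i π) (hJ : 𝒰.IsSmooth J)
    (hJ1 : ∀ x : 𝒰.H1 J, x = 0) :
    Function.Injective (hI.δ₁ 𝒰 hJ) := by
  rw [injective_iff_map_eq_zero]
  intro c hc
  obtain ⟨y, rfl⟩ := (hI.exact_H1map_δ₁ 𝒰 hJ c).1 hc
  rw [hJ1 y, map_zero]

variable {W : Type*} {YZ YE : W → Type*} [∀ w, AddCommGroup (YZ w)] [∀ w, AddCommGroup (YE w)]
variable (κ : ∀ w, YZ w →+ YE w) (locZ : ∀ w, 𝒰.H2 Z →+ YZ w) (locJ : ∀ w, 𝒰.H2 J →+ YE w)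

/-- **Kernel half of (S1)**: `ker(loc : H²(Z) → ∏_w H²(G_w, μ_p)) = δ₁(H¹(E))`. -/
theorem sha2_iff (hK : ShortExact ι pw) (hpw : ∀ e, pw e = p • e) (hI : ShortExact i π)
    (hE : 𝒰.IsSmooth E) (hJ : 𝒰.IsSmooth J)
    (hJ1 : ∀ x : 𝒰.H1 J, x = 0)
    (hC1 : ∀ c : 𝒰.H1 C, p • c = 0 → c = 0)
    (hκ : ∀ w, Function.Injective (κ w))
    (hcomm : ∀ w x, κ w (locZ w x) =
      locJ w (𝒰.H2map i hI.equivariant_left (𝒰.H2map ι hK.equivariant_left x)))
    (hJ2 : ∀ y : 𝒰.H2 J, p • y = 0 → (∀ w, locJ w y = 0) → y = 0)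
    (x : 𝒰.H2 Z) :
    (∀ w, locZ w x = 0) ↔ x ∈ LinearMap.range (hK.δ₁ 𝒰 hE) := by
  have key := Algebra.locZ_eq_zero_iff p
    (hK.δ₁ 𝒰 hE).toAddMonoidHom (𝒰.H2map ι hK.equivariant_left).toAddMonoidHom
    (hI.δ₁ 𝒰 hJ).toAddMonoidHom (𝒰.H2map i hI.equivariant_left).toAddMonoidHom
    κ locZ locJ
    (hK.exact_δ₁_H2map 𝒰 hE) (hI.exact_δ₁_H2map 𝒰 hJ)
    (nsmul_H2_eq_zero 𝒰 Z p (kummer_nsmul_eq_zero hK hpw))
    (idele_δ₁_injective 𝒰 hI hJ hJ1) hC1 hκ hcomm hJ2 x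
  rw [key]
  rfl

variable [Fintype W] {T : Type*} [AddCommGroup T] (inv : ∀ w, YE w →+ T) (invC : 𝒰.H2 C →+ T)

/-- Reciprocity on the image of `H²(Z)`. -/
theorem sum_inv_loc_eq_zero (hK : ShortExact ι pw) (hI : ShortExact i π) (hJ : 𝒰.IsSmooth J)
    (hcomm : ∀ w x, κ w (locZ w x) =
      locJ w (𝒰.H2map i hI.equivariant_left (𝒰.H2map ι hK.equivariant_left x)))
    (hrec : ∀ y : 𝒰.H2 J,
      invC (𝒰.H2map π hI.equivariant_right y) = ∑ w, inv w (locJ w y))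
    (x : 𝒰.H2 Z) : ∑ w, inv w (κ w (locZ w x)) = 0 :=
  Algebra.sum_inv_locZ_eq_zero
    (𝒰.H2map ι hK.equivariant_left).toAddMonoidHom
    (𝒰.H2map i hI.equivariant_left).toAddMonoidHom
    (𝒰.H2map π hI.equivariant_right).toAddMonoidHom
    κ locZ locJ inv invC (hI.exact_H2map_H2map 𝒰 hJ) hcomm hrec x

/-- **Cokernel half of (S1)**: a family of local classes comes from `H²(Z)` iff the sum of its
local invariants vanishes. -/
theorem range_loc_iff (hK : ShortExact ι pw) (hpw : ∀ e, pw e = p • e) (hI : ShortExact i π)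
    (hE : 𝒰.IsSmooth E) (hJ : 𝒰.IsSmooth J)
    (hC1div : ∀ c : 𝒰.H1 C, ∃ c', p • c' = c)
    (hpYZ : ∀ w (ξ : YZ w), p • ξ = 0)
    (hκ : ∀ w, Function.Injective (κ w))
    (hcomm : ∀ w x, κ w (locZ w x) =
      locJ w (𝒰.H2map i hI.equivariant_left (𝒰.H2map ι hK.equivariant_left x)))
    (hrec : ∀ y : 𝒰.H2 J,
      invC (𝒰.H2map π hI.equivariant_right y) = ∑ w, inv w (locJ w y))
    (hinvC : ∀ c : 𝒰.H2 C, p • c = 0 → invC c = 0 → c = 0)
    (hJsurj : ∀ η : ∀ w, YE w, (∀ w, p • η w = 0) →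
      ∃ y : 𝒰.H2 J, p • y = 0 ∧ ∀ w, locJ w y = η w)
    (ξ : ∀ w, YZ w) :
    (∃ x : 𝒰.H2 Z, ∀ w, locZ w x = ξ w) ↔ ∑ w, inv w (κ w (ξ w)) = 0 :=
  Algebra.exists_locZ_eq_iff p
    (𝒰.H2map ι hK.equivariant_left).toAddMonoidHom
    (hI.δ₁ 𝒰 hJ).toAddMonoidHom
    (𝒰.H2map i hI.equivariant_left).toAddMonoidHom
    (𝒰.H2map π hI.equivariant_right).toAddMonoidHom
    κ locZ locJ inv invC
    (fun e he => (kummer_H2_torsion_iff 𝒰 hK hpw hE e).1 he)
    (hI.exact_δ₁_H2map 𝒰 hJ) (hI.exact_H2map_H2map 𝒰 hJ)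
    hC1div hpYZ hκ hcomm hrec hinvC hJsurj ξ

/-- Cokernel half of (S1) with the single class-formation input `H¹(C)[p] = 0`. -/
theorem range_loc_iff' (hp : p.Prime)
    (hK : ShortExact ι pw) (hpw : ∀ e, pw e = p • e) (hI : ShortExact i π)
    (hE : 𝒰.IsSmooth E) (hJ : 𝒰.IsSmooth J)
    (hC1 : ∀ c : 𝒰.H1 C, p • c = 0 → c = 0)
    (hpYZ : ∀ w (ξ : YZ w), p • ξ = 0)
    (hκ : ∀ w, Function.Injective (κ w))
    (hcomm : ∀ w x, κ w (locZ w x) =
      locJ w (𝒰.H2map i hI.equivariant_left (𝒰.H2map ι hK.equivariant_left x)))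
    (hrec : ∀ y : 𝒰.H2 J,
      invC (𝒰.H2map π hI.equivariant_right y) = ∑ w, inv w (locJ w y))
    (hinvC : ∀ c : 𝒰.H2 C, p • c = 0 → invC c = 0 → c = 0)
    (hJsurj : ∀ η : ∀ w, YE w, (∀ w, p • η w = 0) →
      ∃ y : 𝒰.H2 J, p • y = 0 ∧ ∀ w, locJ w y = η w)
    (ξ : ∀ w, YZ w) :
    (∃ x : 𝒰.H2 Z, ∀ w, locZ w x = ξ w) ↔ ∑ w, inv w (κ w (ξ w)) = 0 :=
  range_loc_iff 𝒰 κ locZ locJ inv invC hK hpw hI hE hJ
    (H1_divisible_of_no_torsion 𝒰 hp hC1) hpYZ hκ hcomm hrec hinvC hJsurj ξ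

end Main

end Fermat.Agent.S55.S1_67.Level
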