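/-
[46-S1 / P6] (helper67): counting and finiteness consequences of (S1), in the shape consumed by
`Contract34.GlobalCokerDim` (P6).

* `finrank_pi_le_finrank_range_add_one` : if `X -loc→ ∏_w Y_w -s→ T` is exact in the middle and the
  `p`-torsion of `T` is cyclic of order `≤ p`, then `∑_w dim Y_w ≤ dim (range loc) + 1`.
* `finite_of_finite_ker` : a group is finite if a homomorphism from it has finite kernel and finite
  target.
* `finite_range_of_torsion` : for `δ : A → B` with `ker δ = pA`, `A` torsion and `A[p]` finite,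
  `range δ` is finite (`|A/pA| ≤ |A[p]|`, helper48's `TorsionQuot48`).
* `Level.finite_H2Z` : `H²(Z)` is finite as soon as `H¹(Z)` and the local groups are finite and the
  kernel half of (S1) holds.
-/
import Fermat.Agent.S55.S1_67.Level
import Fermat.Agent.S55.TorsionQuot48

set_option autoImplicit false
set_option linter.style.haveILetI false

universe u

open CategoryTheory groupCohomology Module
open Fermat.Agent.S55.Profin15 Fermat.Agent.S55.Profin15.LevelStr

namespace Fermat.Agent.S55.S1_67.Coker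

section Count

variable {p : ℕ} [Fact p.Prime]
  {X : Type*} [AddCommGroup X] [Module (ZMod p) X]
  {W : Type*} [Fintype W] {Y : W → Type*} [∀ w, AddCommGroup (Y w)] [∀ w, Module (ZMod p) (Y w)]
  [∀ w, Module.Finite (ZMod p) (Y w)]

/-- **The count behind (P6).**  If `X -loc→ ∏_w Y_w -s→ T` is exact in the middle and `T[p]` is
cyclic of order at most `p`, the cokernel of `loc` has dimension at most one. -/
theorem finrank_pi_le_finrank_range_add_one
    (loc : X →ₗ[ZMod p] (∀ w, Y w))
    {T : Type*} [AddCommGroup T] (s : (∀ w, Y w) →+ T)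
    (hex : ∀ ξ, ξ ∈ LinearMap.range loc ↔ s ξ = 0)
    (hT : ∀ t₀ t : T, p • t₀ = 0 → p • t = 0 → t₀ ≠ 0 → ∃ n : ℕ, t = n • t₀) :
    ∑ w, finrank (ZMod p) (Y w) ≤ finrank (ZMod p) (LinearMap.range loc) + 1 := by
  classical
  rw [← Module.finrank_pi_fintype (ZMod p)]
  have hps : ∀ ξ : (∀ w, Y w), p • s ξ = 0 := by
    intro ξ
    rw [← map_nsmul]
    have : p • ξ = 0 := by
      rw [← Nat.cast_smul_eq_nsmul (ZMod p), ZMod.natCast_self, zero_smul]
    rw [this, map_zero]
  by_cases htop : LinearMap.range loc = ⊤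
  · rw [htop, finrank_top]
    exact Nat.le_succ _
  · obtain ⟨ξ₀, hξ₀⟩ : ∃ ξ₀, ξ₀ ∉ LinearMap.range loc := by
      by_contra h
      exact htop (eq_top_iff.2 fun ξ _ => by_contra fun hξ => h ⟨ξ, hξ⟩)
    have ht₀ : s ξ₀ ≠ 0 := fun h => hξ₀ ((hex ξ₀).2 h)
    have hsup : LinearMap.range loc ⊔ Submodule.span (ZMod p) {ξ₀} = ⊤ := by
      rw [eq_top_iff]
      intro ξ _
      obtain ⟨n, hn⟩ := hT (s ξ₀) (s ξ) (hps ξ₀) (hps ξ) ht₀
      have h1 : ξ - n • ξ₀ ∈ LinearMap.range loc := by
        rw [hex, map_sub, map_nsmul, hn, sub_self]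
      have h2 : n • ξ₀ ∈ Submodule.span (ZMod p) {ξ₀} := by
        rw [← Nat.cast_smul_eq_nsmul (ZMod p)]
        exact Submodule.smul_mem _ _ (Submodule.mem_span_singleton_self ξ₀)
      have : ξ = (ξ - n • ξ₀) + n • ξ₀ := by abel
      rw [this]
      exact Submodule.add_mem_sup h1 h2
    have h3 := Submodule.finrank_add_le_finrank_add_finrank (LinearMap.range loc)
      (Submodule.span (ZMod p) {ξ₀})
    rw [hsup, finrank_top] at h3
    have h4 : finrank (ZMod p) (Submodule.span (ZMod p) {ξ₀}) ≤ 1 :=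
      (finrank_span_le_card ({ξ₀} : Set (∀ w, Y w))).trans (by simp)
    omega

end Count

section Finite

/-- A group with a homomorphism of finite kernel to a finite group is finite. -/
theorem finite_of_finite_ker {A B : Type*} [AddCommGroup A] [AddCommGroup B] (f : A →+ B)
    [Finite f.ker] [Finite B] : Finite A := by
  haveI : Finite (A ⧸ f.ker) :=
    Finite.of_injective _ (QuotientAddGroup.kerLift_injective f)
  exact Finite.of_addSubgroup_quotient f.ker

/-- For `δ : A → B` with `ker δ = pA`, `A` torsion and `A[p]` finite, `range δ` is finite. -/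
theorem finite_range_of_torsion {A B : Type*} [AddCommGroup A] [AddCommGroup B] (p : ℕ)
    (δ : A →+ B) (hker : ∀ a, δ a = 0 ↔ ∃ b, p • b = a)
    (htors : ∀ a : A, ∃ n : ℕ, 0 < n ∧ n • a = 0)
    (hfin : Finite {a : A // p • a = 0}) : Finite δ.range := by
  have htors' : IsAddTorsion A := fun a =>
    isOfFinAddOrder_iff_nsmul_eq_zero.2 (htors a)
  haveI : Finite (nsmulAddMonoidHom (α := A) p).ker := by
    refine Finite.of_injective
      (fun x : (nsmulAddMonoidHom (α := A) p).ker =>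
        (⟨x.1, (TorsionQuot48.mem_ker_nsmul_iff p x.1).1 x.2⟩ : {a : A // p • a = 0})) ?_
    intro x y h
    have h' := Subtype.ext_iff.1 h
    exact Subtype.ext h'
  haveI : Finite (A ⧸ (nsmulAddMonoidHom (α := A) p).range) :=
    TorsionQuot48.finite_quotient p htors'
  -- `δ` factors through `A / pA`
  have hle : (nsmulAddMonoidHom (α := A) p).range ≤ δ.ker := by
    intro a ha
    rw [AddMonoidHom.mem_ker, hker]
    exact (TorsionQuot48.mem_range_nsmul_iff p a).1 ha
  let δ' : A ⧸ (nsmulAddMonoidHom (α := A) p).range →+ B :=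
    QuotientAddGroup.lift _ δ hle
  have hrange : δ.range ≤ δ'.range := by
    rintro _ ⟨a, rfl⟩
    exact ⟨QuotientAddGroup.mk a, rfl⟩
  haveI : Finite δ'.range := Set.finite_range δ'
  exact Finite.of_injective (AddSubgroup.inclusion hrange) (AddSubgroup.inclusion_injective hrange)

end Finite

end Fermat.Agent.S55.S1_67.Coker

namespace Fermat.Agent.S55.S1_67.Level

variable {k G : Type u} [CommRing k] [Group G] (𝒰 : LevelStr G)
variable {Z E : Rep.{u} k G} {p : ℕ} {ι : Z →ₗ[k] E} {pw : E →ₗ[k] E}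
variable {W : Type*} [Finite W] {YZ : W → Type*} [∀ w, AddCommGroup (YZ w)]
variable (locZ : ∀ w, 𝒰.H2 Z →+ YZ w)

/-- The `p`-torsion of `H¹(E)` is a quotient of `H¹(Z)` (Kummer sequence). -/
theorem kummer_H1_torsion_iff (hK : ShortExact ι pw) (hpw : ∀ e, pw e = p • e)
    (hE : 𝒰.IsSmooth E) (e : 𝒰.H1 E) :
    p • e = 0 ↔ e ∈ Set.range (𝒰.H1map ι hK.equivariant_left) := by
  rw [← H1map_eq_nsmul 𝒰 E p pw hpw hK.equivariant_right e]
  exact hK.exact_H1map_H1map 𝒰 hE e

/-- **Finiteness half of (P6).**  `H²(Z)` is finite as soon as `H¹(Z)` and the local groups are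
finite and the kernel half of (S1) (`sha2_iff`) holds. -/
theorem finite_H2Z (hK : ShortExact ι pw) (hpw : ∀ e, pw e = p • e) (hE : 𝒰.IsSmooth E)
    (hfin1 : Finite (𝒰.H1 Z)) (hfinY : ∀ w, Finite (YZ w))
    (hker : ∀ x : 𝒰.H2 Z, (∀ w, locZ w x = 0) ↔ x ∈ LinearMap.range (hK.δ₁ 𝒰 hE)) :
    Finite (𝒰.H2 Z) := by
  classical
  -- the `p`-torsion of `H¹(E)` is finite
  have hfinT : Finite {a : 𝒰.H1 E // p • a = 0} := by
    have hsurj : Function.Surjective
        (fun z : 𝒰.H1 Z => (⟨𝒰.H1map ι hK.equivariant_left z,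
          (kummer_H1_torsion_iff 𝒰 hK hpw hE _).2 ⟨z, rfl⟩⟩ : {a : 𝒰.H1 E // p • a = 0})) := by
      rintro ⟨a, ha⟩
      obtain ⟨z, hz⟩ := (kummer_H1_torsion_iff 𝒰 hK hpw hE a).1 ha
      exact ⟨z, Subtype.ext hz⟩
    exact Finite.of_surjective _ hsurj
  -- hence `range δ₁` is finite
  have hfinR : Finite (hK.δ₁ 𝒰 hE).toAddMonoidHom.range :=
    Coker.finite_range_of_torsion p (hK.δ₁ 𝒰 hE).toAddMonoidHom
      (fun a => kummer_δ₁_eq_zero_iff 𝒰 hK hpw hE a) (fun a => H1_torsion 𝒰 a) hfinT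
  -- the total localisation map
  let L : 𝒰.H2 Z →+ (∀ w, YZ w) := AddMonoidHom.pi locZ
  haveI : Finite (∀ w, YZ w) := by
    haveI := hfinY
    haveI : Fintype W := Fintype.ofFinite W
    infer_instance
  haveI : Finite L.ker := by
    refine Finite.of_injective
      (fun x : L.ker => (⟨x.1, ?_⟩ : (hK.δ₁ 𝒰 hE).toAddMonoidHom.range)) ?_
    · have hx : ∀ w, locZ w x.1 = 0 := fun w => congrFun (AddMonoidHom.mem_ker.1 x.2) w
      obtain ⟨a, ha⟩ := (hker x.1).1 hx
      exact ⟨a, ha⟩
    · intro x y h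
      have h' := Subtype.ext_iff.1 h
      exact Subtype.ext h'
  exact Coker.finite_of_finite_ker L

end Fermat.Agent.S55.S1_67.Level
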