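/-
[46-S1 / P6] (helper67): change of coefficient RING in level cohomology.

The Kummer sequence `0 → μ_p → E_S → E_S → 0` lives in `Rep ℤ G`, while the contract speaks of
`Rep (ZMod p) G`.  An additive equivariant map `φ : M →+ M'` between a `k`-representation and a
`k'`-representation of the same group induces additive maps on level cohomology
(`H1add`, `H2add`), functorial, compatible with `H1π/H2π` and with restriction; an additive
equivariant equivalence induces additive equivalences (`H1addEquiv`, `H2addEquiv`).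
-/
import Fermat.Agent.S55.Profin15.Restriction

set_option autoImplicit false

universe u

open CategoryTheory groupCohomology
open Fermat.Agent.S55.Profin15 Fermat.Agent.S55.Profin15.LevelStr

namespace Fermat.Agent.S55.S1_67.ScalarChange

variable {G : Type u} [Group G] (𝒰 : LevelStr G)
variable {k k' k'' : Type u} [CommRing k] [CommRing k'] [CommRing k'']
variable {M : Rep.{u} k G} {M' : Rep.{u} k' G} {M'' : Rep.{u} k'' G}

/-- an additive map commuting with the group actions -/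
def IsAddEquivariant (φ : M →+ M') : Prop := ∀ (g : G) (m : M), φ (M.ρ g m) = M'.ρ g (φ m)

lemma IsAddEquivariant.comp {φ : M →+ M'} {ψ : M' →+ M''} (hφ : IsAddEquivariant φ)
    (hψ : IsAddEquivariant ψ) : IsAddEquivariant (ψ.comp φ) := fun g m => by
  simp only [AddMonoidHom.comp_apply, hφ g m, hψ g]

lemma isAddEquivariant_id : IsAddEquivariant (AddMonoidHom.id M) := fun _ _ => rfl

lemma IsAddEquivariant.symm {φ : M ≃+ M'} (hφ : IsAddEquivariant φ.toAddMonoidHom) :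
    IsAddEquivariant φ.symm.toAddMonoidHom := fun g m => by
  apply φ.injective
  have := hφ g (φ.symm m)
  simp only [AddEquiv.coe_toAddMonoidHom, AddEquiv.apply_symm_apply] at this ⊢
  exact this.symm

section maps

variable (φ : M →+ M') (hφ : IsAddEquivariant φ)

include hφ in
lemma comp_mem_cocycles₁ {x : G → M} (hx : x ∈ cocycles₁ M) :
    (fun g => φ (x g)) ∈ cocycles₁ M' := by
  rw [mem_cocycles₁_iff] at hx ⊢
  intro g h
  simp only [hx g h, map_add, hφ g]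

include hφ in
lemma comp_mem_cocycles₂ {x : G × G → M} (hx : x ∈ cocycles₂ M) :
    (fun g => φ (x g)) ∈ cocycles₂ M' := by
  rw [mem_cocycles₂_iff] at hx ⊢
  intro g h j
  simp only [← map_add, hx g h j, ← hφ g]

include hφ in
lemma comp_d₀₁ (m : M) : (fun g => φ ((d₀₁ M).hom m g)) = (d₀₁ M').hom (φ m) := by
  funext g
  simp only [d₀₁_hom_apply, map_sub, hφ g m]

include hφ in
lemma comp_d₁₂ (x : G → M) :
    (fun g => φ ((d₁₂ M).hom x g)) = (d₁₂ M').hom (fun g => φ (x g)) := by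
  funext ⟨g, h⟩
  simp only [d₁₂_hom_apply, map_add, map_sub, hφ g]

include hφ in
lemma comp_mem_Z₁ {x : G → M} (hx : x ∈ 𝒰.Z₁ M) : (fun g => φ (x g)) ∈ 𝒰.Z₁ M' :=
  ⟨comp_mem_cocycles₁ φ hφ hx.1, (IsConst₁.comp hx.2 φ :)⟩

include hφ in
lemma comp_mem_Z₂ {x : G × G → M} (hx : x ∈ 𝒰.Z₂ M) : (fun g => φ (x g)) ∈ 𝒰.Z₂ M' :=
  ⟨comp_mem_cocycles₂ φ hφ hx.1, (IsConst₂.comp hx.2 φ :)⟩

include hφ in
lemma comp_mem_coboundaries₁ {x : G → M} (hx : x ∈ coboundaries₁ M) :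
    (fun g => φ (x g)) ∈ coboundaries₁ M' := by
  obtain ⟨m, rfl⟩ := hx
  exact ⟨φ m, (comp_d₀₁ φ hφ m).symm⟩

include hφ in
lemma comp_mem_B₂ {x : G × G → M} (hx : x ∈ 𝒰.B₂ M) : (fun g => φ (x g)) ∈ 𝒰.B₂ M' := by
  obtain ⟨y, hy, rfl⟩ := (𝒰.mem_B₂_iff M x).1 hx
  exact (𝒰.mem_B₂_iff M' _).2 ⟨fun g => φ (y g), (IsConst₁.comp hy φ :), (comp_d₁₂ φ hφ y).symm⟩

/-- the map on level `1`-cocycles, as a `ℤ`-linear map -/
def Z₁add : ↥(𝒰.Z₁ M) →ₗ[ℤ] ↥(𝒰.Z₁ M') where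
  toFun x := ⟨fun g => φ ((x : G → M) g), comp_mem_Z₁ 𝒰 φ hφ x.2⟩
  map_add' x y := by
    apply Subtype.ext
    funext g
    exact map_add φ _ _
  map_smul' n x := by
    apply Subtype.ext
    funext g
    exact map_zsmul φ n _

/-- the map on level `2`-cocycles, as a `ℤ`-linear map -/
def Z₂add : ↥(𝒰.Z₂ M) →ₗ[ℤ] ↥(𝒰.Z₂ M') where
  toFun x := ⟨fun g => φ ((x : G × G → M) g), comp_mem_Z₂ 𝒰 φ hφ x.2⟩
  map_add' x y := by
    apply Subtype.ext
    funext g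
    exact map_add φ _ _
  map_smul' n x := by
    apply Subtype.ext
    funext g
    exact map_zsmul φ n _

@[simp] lemma coe_Z₁add (x : ↥(𝒰.Z₁ M)) (g : G) :
    (Z₁add 𝒰 φ hφ x : G → M') g = φ ((x : G → M) g) := rfl

@[simp] lemma coe_Z₂add (x : ↥(𝒰.Z₂ M)) (g : G × G) :
    (Z₂add 𝒰 φ hφ x : G × G → M') g = φ ((x : G × G → M) g) := rfl

/-- the induced additive map on level `H¹` -/
def H1add : 𝒰.H1 M →+ 𝒰.H1 M' :=
  ((Submodule.liftQ (((coboundaries₁ M).comap (𝒰.Z₁ M).subtype).restrictScalars ℤ)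
      (((𝒰.H1π M').restrictScalars ℤ).comp (Z₁add 𝒰 φ hφ)) (by
        intro x hx
        rw [LinearMap.mem_ker, LinearMap.comp_apply]
        exact (𝒰.H1π_eq_zero_iff M' _).2 (comp_mem_coboundaries₁ φ hφ hx))).comp
    (Submodule.Quotient.restrictScalarsEquiv ℤ
      ((coboundaries₁ M).comap (𝒰.Z₁ M).subtype)).symm.toLinearMap).toAddMonoidHom

/-- the induced additive map on level `H²` -/
def H2add : 𝒰.H2 M →+ 𝒰.H2 M' :=
  ((Submodule.liftQ (((𝒰.B₂ M).comap (𝒰.Z₂ M).subtype).restrictScalars ℤ)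
      (((𝒰.H2π M').restrictScalars ℤ).comp (Z₂add 𝒰 φ hφ)) (by
        intro x hx
        rw [LinearMap.mem_ker, LinearMap.comp_apply]
        exact (𝒰.H2π_eq_zero_iff M' _).2 (comp_mem_B₂ 𝒰 φ hφ hx))).comp
    (Submodule.Quotient.restrictScalarsEquiv ℤ
      ((𝒰.B₂ M).comap (𝒰.Z₂ M).subtype)).symm.toLinearMap).toAddMonoidHom

@[simp] lemma H1add_H1π (x : ↥(𝒰.Z₁ M)) :
    H1add 𝒰 φ hφ (𝒰.H1π M x) = 𝒰.H1π M' (Z₁add 𝒰 φ hφ x) := rfl

@[simp] lemma H2add_H2π (x : ↥(𝒰.Z₂ M)) :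
    H2add 𝒰 φ hφ (𝒰.H2π M x) = 𝒰.H2π M' (Z₂add 𝒰 φ hφ x) := rfl

end maps

lemma H1add_comp {φ : M →+ M'} {ψ : M' →+ M''} (hφ : IsAddEquivariant φ)
    (hψ : IsAddEquivariant ψ) (x : 𝒰.H1 M) :
    H1add 𝒰 (ψ.comp φ) (hφ.comp hψ) x = H1add 𝒰 ψ hψ (H1add 𝒰 φ hφ x) := by
  obtain ⟨c, rfl⟩ := Submodule.Quotient.mk_surjective _ x
  rfl

lemma H2add_comp {φ : M →+ M'} {ψ : M' →+ M''} (hφ : IsAddEquivariant φ)
    (hψ : IsAddEquivariant ψ) (x : 𝒰.H2 M) :
    H2add 𝒰 (ψ.comp φ) (hφ.comp hψ) x = H2add 𝒰 ψ hψ (H2add 𝒰 φ hφ x) := by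
  obtain ⟨c, rfl⟩ := Submodule.Quotient.mk_surjective _ x
  rfl

lemma H1add_id (x : 𝒰.H1 M) : H1add 𝒰 (AddMonoidHom.id M) isAddEquivariant_id x = x := by
  obtain ⟨c, rfl⟩ := Submodule.Quotient.mk_surjective _ x
  rfl

lemma H2add_id (x : 𝒰.H2 M) : H2add 𝒰 (AddMonoidHom.id M) isAddEquivariant_id x = x := by
  obtain ⟨c, rfl⟩ := Submodule.Quotient.mk_surjective _ x
  rfl

/-- `H1add`, `H2add` only depend on the underlying function. -/
lemma H1add_congr {φ ψ : M →+ M'} (hφ : IsAddEquivariant φ) (hψ : IsAddEquivariant ψ)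
    (h : ∀ m, φ m = ψ m) (x : 𝒰.H1 M) : H1add 𝒰 φ hφ x = H1add 𝒰 ψ hψ x := by
  have : φ = ψ := AddMonoidHom.ext h
  subst this
  rfl

lemma H2add_congr {φ ψ : M →+ M'} (hφ : IsAddEquivariant φ) (hψ : IsAddEquivariant ψ)
    (h : ∀ m, φ m = ψ m) (x : 𝒰.H2 M) : H2add 𝒰 φ hφ x = H2add 𝒰 ψ hψ x := by
  have : φ = ψ := AddMonoidHom.ext h
  subst this
  rfl

/-- For a linear equivariant map, `H1add` is `H1map`. -/
lemma H1add_eq_H1map {N : Rep.{u} k G} (φ : M →ₗ[k] N) (hφ : LevelStr.IsEquivariant φ)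
    (x : 𝒰.H1 M) : H1add 𝒰 φ.toAddMonoidHom (fun g m => hφ g m) x = 𝒰.H1map φ hφ x := by
  obtain ⟨c, rfl⟩ := Submodule.Quotient.mk_surjective _ x
  rfl

/-- For a linear equivariant map, `H2add` is `H2map`. -/
lemma H2add_eq_H2map {N : Rep.{u} k G} (φ : M →ₗ[k] N) (hφ : LevelStr.IsEquivariant φ)
    (x : 𝒰.H2 M) : H2add 𝒰 φ.toAddMonoidHom (fun g m => hφ g m) x = 𝒰.H2map φ hφ x := by
  obtain ⟨c, rfl⟩ := Submodule.Quotient.mk_surjective _ x
  rfl

section Equiv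

variable (φ : M ≃+ M') (hφ : IsAddEquivariant φ.toAddMonoidHom)

/-- an additive equivariant equivalence induces an additive equivalence on level `H¹` -/
def H1addEquiv : 𝒰.H1 M ≃+ 𝒰.H1 M' where
  toFun := H1add 𝒰 φ.toAddMonoidHom hφ
  invFun := H1add 𝒰 φ.symm.toAddMonoidHom hφ.symm
  left_inv x := by
    rw [← H1add_comp 𝒰 hφ hφ.symm]
    rw [H1add_congr 𝒰 (hφ.comp hφ.symm) isAddEquivariant_id (fun m => by simp)]
    exact H1add_id 𝒰 x
  right_inv x := by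
    rw [← H1add_comp 𝒰 hφ.symm hφ]
    rw [H1add_congr 𝒰 (hφ.symm.comp hφ) isAddEquivariant_id (fun m => by simp)]
    exact H1add_id 𝒰 x
  map_add' := map_add _

/-- an additive equivariant equivalence induces an additive equivalence on level `H²` -/
def H2addEquiv : 𝒰.H2 M ≃+ 𝒰.H2 M' where
  toFun := H2add 𝒰 φ.toAddMonoidHom hφ
  invFun := H2add 𝒰 φ.symm.toAddMonoidHom hφ.symm
  left_inv x := by
    rw [← H2add_comp 𝒰 hφ hφ.symm]
    rw [H2add_congr 𝒰 (hφ.comp hφ.symm) isAddEquivariant_id (fun m => by simp)]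
    exact H2add_id 𝒰 x
  right_inv x := by
    rw [← H2add_comp 𝒰 hφ.symm hφ]
    rw [H2add_congr 𝒰 (hφ.symm.comp hφ) isAddEquivariant_id (fun m => by simp)]
    exact H2add_id 𝒰 x
  map_add' := map_add _

@[simp] lemma H1addEquiv_apply (x : 𝒰.H1 M) :
    H1addEquiv 𝒰 φ hφ x = H1add 𝒰 φ.toAddMonoidHom hφ x := rfl

@[simp] lemma H2addEquiv_apply (x : 𝒰.H2 M) :
    H2addEquiv 𝒰 φ hφ x = H2add 𝒰 φ.toAddMonoidHom hφ x := rfl

end Equiv

section Restriction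

variable {H : Type u} [Group H] {𝒱 : LevelStr H} {𝒰} {f : H →* G}

/-- the same additive map, between the restricted representations -/
def resAdd (f : H →* G) (φ : M →+ M') : (Rep.res f M) →+ (Rep.res f M') := φ

lemma IsAddEquivariant.res {φ : M →+ M'} (hφ : IsAddEquivariant φ) (f : H →* G) :
    IsAddEquivariant (resAdd f φ) := fun h m => hφ (f h) m

/-- change of coefficient ring commutes with restriction, degree `1` -/
lemma res₁_H1add (hf : LevelStr.IsContinuous 𝒱 𝒰 f) {φ : M →+ M'} (hφ : IsAddEquivariant φ)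
    (x : 𝒰.H1 M) :
    hf.res₁ M' (H1add 𝒰 φ hφ x) = H1add 𝒱 (resAdd f φ) (hφ.res f) (hf.res₁ M x) := by
  obtain ⟨c, rfl⟩ := Submodule.Quotient.mk_surjective _ x
  rfl

/-- change of coefficient ring commutes with restriction, degree `2` -/
lemma res₂_H2add (hf : LevelStr.IsContinuous 𝒱 𝒰 f) {φ : M →+ M'} (hφ : IsAddEquivariant φ)
    (x : 𝒰.H2 M) :
    hf.res₂ M' (H2add 𝒰 φ hφ x) = H2add 𝒱 (resAdd f φ) (hφ.res f) (hf.res₂ M x) := by
  obtain ⟨c, rfl⟩ := Submodule.Quotient.mk_surjective _ x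
  rfl

end Restriction

end Fermat.Agent.S55.S1_67.ScalarChange
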