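/-
[46-S1 / P6] (helper67): the arithmetic core of `Contract34.GlobalCokerDim` (P6), at one level.

Setting (everything in `Type`): a group `N` (`= G_{L,S}`) with a level structure `𝒩`;
`A : Rep (ZMod p) N` (`= 𝔽_p`, trivial action) and an additive equivariant identification
`φ : A ≃+ Z` with `Z : Rep k₀ N` (`= μ_p`, a choice of `ζ_p`); the Kummer sequence
`0 → Z → E -p→ E → 0` and the idele sequence `0 → E → J → C → 0` in `Rep k₀ N` (in practice
`k₀ = ℤ`; generic to avoid the `ℤ`-module instance diamond); a finite family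
of local groups `f w : N_w →* N` (level-continuous), `w ∈ W` (`=` the places of `L` above `S`).

Arithmetic inputs (named hypotheses, shapes of `CDArith63.Formation` with `n = 1`):
* `hJ1` : `H¹(N, J) = 0`;  `hC1` : `H¹(N, C)[p] = 0`;
* `invJ w : H²(N, J) →+ T` jointly injective and jointly surjective on `p`-torsion ((F4));
* `invC : H²(N, C) →+ T` injective on `p`-torsion, `invC ∘ π_* = ∑_w invJ w` ((F5));
* `lam w : H²(N_w, A) →+ T` injective, compatible with `invJ w` (`hloc`);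
* `T[p]` cyclic of order `≤ p` (`hT`); `H¹(N, A)` and the `H²(N_w, A)` finite.

Conclusions:
* `range_res_iff` : a family of local classes is the localisation of a class of `H²(N, A)` iff the
  sum of its invariants vanishes;  `sum_lam_res_eq_zero` : reciprocity at the level `N`;
* `ker_res_iff` : the kernel of the total localisation is the image of `δ : H¹(N, E) → H²(N, Z)`;
* `finite_H2` and `p6_core` : `H²(N, A)` is finite and
  `∑_w dim H²(N_w, A) ≤ dim (range of total localisation) + 1`.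
-/
import Fermat.Agent.S55.S1_67.Coker
import Fermat.Agent.S55.S1_67.ScalarChange

set_option autoImplicit false
set_option linter.style.haveILetI false
set_option maxHeartbeats 400000

open CategoryTheory groupCohomology Module
open Fermat.Agent.S55.Profin15 Fermat.Agent.S55.Profin15.LevelStr

namespace Fermat.Agent.S55.S1_67.P6Core

open Fermat.Agent.S55.S1_67.ScalarChange

variable {N : Type} [Group N] (𝒩 : LevelStr N) {p : ℕ} [Fact p.Prime]
variable {k₀ : Type} [CommRing k₀]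
variable {A : Rep.{0} (ZMod p) N} {Z E J C : Rep.{0} k₀ N}
variable (φ : A ≃+ Z) (hφ : IsAddEquivariant φ.toAddMonoidHom)
variable {ι : Z →ₗ[k₀] E} {pw : E →ₗ[k₀] E} {i : E →ₗ[k₀] J} {π : J →ₗ[k₀] C}
variable {W : Type} [Fintype W] {Nw : W → Type} [∀ w, Group (Nw w)]
variable {𝒱 : ∀ w, LevelStr (Nw w)} {f : ∀ w, Nw w →* N}
variable (hf : ∀ w, LevelStr.IsContinuous (𝒱 w) 𝒩 (f w))
variable {T : Type} [AddCommGroup T]
variable (invJ : W → (𝒩.H2 J →+ T)) (invC : 𝒩.H2 C →+ T)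
variable (lam : ∀ w, (𝒱 w).H2 (Rep.res (f w) A) →+ T)

/-- the total localisation map `H²(N, A) → ∏_w H²(N_w, A)` -/
noncomputable def resTotal :
    𝒩.H2 A →ₗ[ZMod p] (∀ w, (𝒱 w).H2 (Rep.res (f w) A)) :=
  LinearMap.pi fun w => (hf w).res₂ A

omit [Fintype W] in
@[simp] lemma resTotal_apply (a : 𝒩.H2 A) (w : W) :
    resTotal 𝒩 hf a w = (hf w).res₂ A a := rfl

/-- the localisation maps transported to `H²(N, Z)` along `φ` -/
noncomputable def locZ (w : W) : 𝒩.H2 Z →+ (𝒱 w).H2 (Rep.res (f w) A) :=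
  ((hf w).res₂ A).toAddMonoidHom.comp (H2addEquiv 𝒩 φ hφ).symm.toAddMonoidHom

omit [Fintype W] in
lemma locZ_apply (w : W) (a : 𝒩.H2 A) :
    locZ 𝒩 φ hφ hf w (H2add 𝒩 φ.toAddMonoidHom hφ a) = (hf w).res₂ A a := by
  show (hf w).res₂ A ((H2addEquiv 𝒩 φ hφ).symm (H2addEquiv 𝒩 φ hφ a)) = _
  rw [AddEquiv.symm_apply_apply]

section CountFun

/-- function form of `Coker.finrank_pi_le_finrank_range_add_one` (avoids comparing instance paths
on quotient types at the call site). -/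
theorem finrank_le_of_sum {X : Type} [AddCommGroup X] [Module (ZMod p) X]
    {W : Type} [Fintype W] {Y : W → Type} [∀ w, AddCommGroup (Y w)]
    [∀ w, Module (ZMod p) (Y w)] [∀ w, Module.Finite (ZMod p) (Y w)]
    {T : Type} [AddCommGroup T]
    (loc : X →ₗ[ZMod p] (∀ w, Y w)) (lam : ∀ w, Y w → T)
    (hadd : ∀ w (a b : Y w), lam w (a + b) = lam w a + lam w b)
    (hex : ∀ ξ, ξ ∈ LinearMap.range loc ↔ ∑ w, lam w (ξ w) = 0)
    (hT : ∀ t₀ t : T, p • t₀ = 0 → p • t = 0 → t₀ ≠ 0 → ∃ n : ℕ, t = n • t₀) :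
    ∑ w, finrank (ZMod p) (Y w) ≤ finrank (ZMod p) (LinearMap.range loc) + 1 :=
  Coker.finrank_pi_le_finrank_range_add_one loc
    (AddMonoidHom.mk' (fun ξ => ∑ w, lam w (ξ w)) (by
      intro ξ η
      simp only [Pi.add_apply, hadd, Finset.sum_add_distrib]))
    hex hT

end CountFun

section Main

omit [Fintype W] in
/-- the compatibility hypothesis `hloc`, transported to `H²(N, Z)` -/
lemma hcomm_of_hloc (hK : ShortExact ι pw) (hI : ShortExact i π)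
    (hloc : ∀ w (a : 𝒩.H2 A), lam w ((hf w).res₂ A a) =
      invJ w (𝒩.H2map i hI.equivariant_left (𝒩.H2map ι hK.equivariant_left
        (H2add 𝒩 φ.toAddMonoidHom hφ a))))
    (w : W) (x : 𝒩.H2 Z) :
    lam w (locZ 𝒩 φ hφ hf w x) =
      invJ w (𝒩.H2map i hI.equivariant_left (𝒩.H2map ι hK.equivariant_left x)) := by
  obtain ⟨a, rfl⟩ := (H2addEquiv 𝒩 φ hφ).surjective x
  rw [H2addEquiv_apply, locZ_apply, hloc]

/-- **Reciprocity at the level `N`**: the sum of the local invariants vanishes on global classes. -/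
theorem sum_lam_res_eq_zero (hK : ShortExact ι pw) (hI : ShortExact i π) (hJ : 𝒩.IsSmooth J)
    (hcompat : ∀ y : 𝒩.H2 J, invC (𝒩.H2map π hI.equivariant_right y) = ∑ w, invJ w y)
    (hloc : ∀ w (a : 𝒩.H2 A), lam w ((hf w).res₂ A a) =
      invJ w (𝒩.H2map i hI.equivariant_left (𝒩.H2map ι hK.equivariant_left
        (H2add 𝒩 φ.toAddMonoidHom hφ a))))
    (a : 𝒩.H2 A) : ∑ w, lam w ((hf w).res₂ A a) = 0 := by
  have h := Level.sum_inv_loc_eq_zero 𝒩 (YZ := fun w : W => (𝒱 w).H2 (Rep.res (f w) A)) (YE := fun _ : W => T) lam (locZ 𝒩 φ hφ hf) invJ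
    (fun _ => AddMonoidHom.id T) invC hK hI hJ
    (hcomm_of_hloc 𝒩 φ hφ hf invJ lam hK hI hloc) hcompat
    (H2add 𝒩 φ.toAddMonoidHom hφ a)
  simpa only [locZ_apply, AddMonoidHom.id_apply] using h

/-- **Cokernel half at the level `N`**: a family of local classes is the total localisation of a
class of `H²(N, A)` iff the sum of its invariants vanishes. -/
theorem range_res_iff (hK : ShortExact ι pw) (hpw : ∀ e, pw e = p • e) (hI : ShortExact i π)
    (hE : 𝒩.IsSmooth E) (hJ : 𝒩.IsSmooth J)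
    (hC1 : ∀ c : 𝒩.H1 C, p • c = 0 → c = 0)
    (hsurjJ : ∀ t : W → T, (∀ w, p • t w = 0) → ∃ y : 𝒩.H2 J, p • y = 0 ∧ ∀ w, invJ w y = t w)
    (hinjC : ∀ c : 𝒩.H2 C, p • c = 0 → invC c = 0 → c = 0)
    (hcompat : ∀ y : 𝒩.H2 J, invC (𝒩.H2map π hI.equivariant_right y) = ∑ w, invJ w y)
    (hlam : ∀ w, Function.Injective (lam w))
    (hloc : ∀ w (a : 𝒩.H2 A), lam w ((hf w).res₂ A a) =
      invJ w (𝒩.H2map i hI.equivariant_left (𝒩.H2map ι hK.equivariant_left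
        (H2add 𝒩 φ.toAddMonoidHom hφ a))))
    (ξ : ∀ w, (𝒱 w).H2 (Rep.res (f w) A)) :
    ξ ∈ LinearMap.range (resTotal 𝒩 hf) ↔ ∑ w, lam w (ξ w) = 0 := by
  have hp : p.Prime := Fact.out
  have hpY : ∀ w (η : (𝒱 w).H2 (Rep.res (f w) A)), p • η = 0 := by
    intro w η
    rw [← Nat.cast_smul_eq_nsmul (ZMod p), ZMod.natCast_self, zero_smul]
  have key := Level.range_loc_iff' 𝒩 (YZ := fun w : W => (𝒱 w).H2 (Rep.res (f w) A)) (YE := fun _ : W => T) lam (locZ 𝒩 φ hφ hf) invJ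
    (fun _ => AddMonoidHom.id T) invC hp hK hpw hI hE hJ hC1 hpY hlam
    (hcomm_of_hloc 𝒩 φ hφ hf invJ lam hK hI hloc) hcompat hinjC hsurjJ ξ
  simp only [AddMonoidHom.id_apply] at key
  rw [← key]
  constructor
  · rintro ⟨a, rfl⟩
    exact ⟨H2add 𝒩 φ.toAddMonoidHom hφ a, fun w => by rw [locZ_apply]; rfl⟩
  · rintro ⟨x, hx⟩
    obtain ⟨a, rfl⟩ := (H2addEquiv 𝒩 φ hφ).surjective x
    refine ⟨a, funext fun w => ?_⟩
    rw [← hx w, H2addEquiv_apply, locZ_apply]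
    rfl

omit [Fintype W] in
/-- **Kernel half at the level `N`**: a class of `H²(N, A)` is locally trivial iff its image in
`H²(N, Z)` lies in the range of the Kummer connecting map `δ₁ : H¹(N, E) → H²(N, Z)`. -/
theorem ker_res_iff (hK : ShortExact ι pw) (hpw : ∀ e, pw e = p • e) (hI : ShortExact i π)
    (hE : 𝒩.IsSmooth E) (hJ : 𝒩.IsSmooth J)
    (hJ1 : ∀ x : 𝒩.H1 J, x = 0)
    (hC1 : ∀ c : 𝒩.H1 C, p • c = 0 → c = 0)
    (hinjJ : ∀ y : 𝒩.H2 J, p • y = 0 → (∀ w, invJ w y = 0) → y = 0)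
    (hlam : ∀ w, Function.Injective (lam w))
    (hloc : ∀ w (a : 𝒩.H2 A), lam w ((hf w).res₂ A a) =
      invJ w (𝒩.H2map i hI.equivariant_left (𝒩.H2map ι hK.equivariant_left
        (H2add 𝒩 φ.toAddMonoidHom hφ a))))
    (a : 𝒩.H2 A) :
    (∀ w, (hf w).res₂ A a = 0) ↔
      H2add 𝒩 φ.toAddMonoidHom hφ a ∈ LinearMap.range (hK.δ₁ 𝒩 hE) := by
  rw [← Level.sha2_iff 𝒩 (YZ := fun w : W => (𝒱 w).H2 (Rep.res (f w) A)) (YE := fun _ : W => T) lam (locZ 𝒩 φ hφ hf) invJ hK hpw hI hE hJ hJ1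
    hC1 hlam (hcomm_of_hloc 𝒩 φ hφ hf invJ lam hK hI hloc) hinjJ]
  simp only [locZ_apply]

/-- **Finiteness half of (P6)**: `H²(N, A)` is finite. -/
theorem finite_H2 (hK : ShortExact ι pw) (hpw : ∀ e, pw e = p • e) (hI : ShortExact i π)
    (hE : 𝒩.IsSmooth E) (hJ : 𝒩.IsSmooth J)
    (hJ1 : ∀ x : 𝒩.H1 J, x = 0)
    (hC1 : ∀ c : 𝒩.H1 C, p • c = 0 → c = 0)
    (hinjJ : ∀ y : 𝒩.H2 J, p • y = 0 → (∀ w, invJ w y = 0) → y = 0)
    (hlam : ∀ w, Function.Injective (lam w))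
    (hloc : ∀ w (a : 𝒩.H2 A), lam w ((hf w).res₂ A a) =
      invJ w (𝒩.H2map i hI.equivariant_left (𝒩.H2map ι hK.equivariant_left
        (H2add 𝒩 φ.toAddMonoidHom hφ a))))
    (hfin1 : Finite (𝒩.H1 A))
    (hfinY : ∀ w, Finite ((𝒱 w).H2 (Rep.res (f w) A))) :
    Finite (𝒩.H2 A) := by
  have hfin1Z : Finite (𝒩.H1 Z) :=
    Finite.of_equiv _ (H1addEquiv 𝒩 φ hφ).toEquiv
  have hZ : Finite (𝒩.H2 Z) :=
    Level.finite_H2Z 𝒩 (locZ 𝒩 φ hφ hf) hK hpw hE hfin1Z hfinY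
      (Level.sha2_iff 𝒩 (YZ := fun w : W => (𝒱 w).H2 (Rep.res (f w) A)) (YE := fun _ : W => T) lam (locZ 𝒩 φ hφ hf) invJ hK hpw hI hE hJ hJ1
        hC1 hlam (hcomm_of_hloc 𝒩 φ hφ hf invJ lam hK hI hloc) hinjJ)
  exact Finite.of_equiv _ (H2addEquiv 𝒩 φ hφ).symm.toEquiv

/-- **(P6) at one level.**  `H²(N, A)` is a finite `𝔽_p`-module and the cokernel of the total
localisation map has dimension at most one. -/
theorem p6_core (hK : ShortExact ι pw) (hpw : ∀ e, pw e = p • e) (hI : ShortExact i π)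
    (hE : 𝒩.IsSmooth E) (hJ : 𝒩.IsSmooth J)
    (hJ1 : ∀ x : 𝒩.H1 J, x = 0)
    (hC1 : ∀ c : 𝒩.H1 C, p • c = 0 → c = 0)
    (hinjJ : ∀ y : 𝒩.H2 J, p • y = 0 → (∀ w, invJ w y = 0) → y = 0)
    (hsurjJ : ∀ t : W → T, (∀ w, p • t w = 0) → ∃ y : 𝒩.H2 J, p • y = 0 ∧ ∀ w, invJ w y = t w)
    (hinjC : ∀ c : 𝒩.H2 C, p • c = 0 → invC c = 0 → c = 0)
    (hcompat : ∀ y : 𝒩.H2 J, invC (𝒩.H2map π hI.equivariant_right y) = ∑ w, invJ w y)
    (hlam : ∀ w, Function.Injective (lam w))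
    (hloc : ∀ w (a : 𝒩.H2 A), lam w ((hf w).res₂ A a) =
      invJ w (𝒩.H2map i hI.equivariant_left (𝒩.H2map ι hK.equivariant_left
        (H2add 𝒩 φ.toAddMonoidHom hφ a))))
    (hT : ∀ t₀ t : T, p • t₀ = 0 → p • t = 0 → t₀ ≠ 0 → ∃ n : ℕ, t = n • t₀)
    (hfin1 : Finite (𝒩.H1 A))
    (hfinY : ∀ w, Finite ((𝒱 w).H2 (Rep.res (f w) A))) :
    Module.Finite (ZMod p) (𝒩.H2 A) ∧
      ∑ w, finrank (ZMod p) ((𝒱 w).H2 (Rep.res (f w) A)) ≤
        finrank (ZMod p) (LinearMap.range (resTotal 𝒩 (A := A) hf)) + 1 := by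
  haveI : Finite (𝒩.H2 A) :=
    finite_H2 𝒩 φ hφ hf invJ lam hK hpw hI hE hJ hJ1 hC1 hinjJ hlam hloc hfin1 hfinY
  haveI : ∀ w, Finite ((𝒱 w).H2 (Rep.res (f w) A)) := hfinY
  haveI : ∀ w, Module.Finite (ZMod p) ((𝒱 w).H2 (Rep.res (f w) A)) :=
    fun w => Module.Finite.of_finite
  refine ⟨Module.Finite.of_finite, ?_⟩
  have hex : ∀ ξ : (∀ w, (𝒱 w).H2 (Rep.res (f w) A)),
      ξ ∈ LinearMap.range (resTotal 𝒩 (A := A) hf) ↔ ∑ w, lam w (ξ w) = 0 :=
    fun ξ => range_res_iff 𝒩 φ hφ hf invJ invC lam hK hpw hI hE hJ hC1 hsurjJ hinjC hcompat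
      hlam hloc ξ
  have h1 := finrank_le_of_sum (p := p) (W := W)
    (Y := fun w => (𝒱 w).H2 (Rep.res (f w) A)) (T := T) (resTotal 𝒩 (A := A) hf)
    (fun w a => lam w a)
  have h2 := h1 (fun w a b => map_add (lam w) a b)
  have h3 := h2 hex hT
  exact h3

end Main

end Fermat.Agent.S55.S1_67.P6Core
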