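/-
[46-S1 / P6] (helper67): `P6Core.p6_core` with the local data in the STANDARD shape of
`S1_67.Level` / `S1Limit41.Global` / `P1Lim62.Datum.CompDatum`:

* local target groups `YE w` (`= H²(N_w, Ω_w^×)`, the Brauer group of the completion at `w`),
* local Kummer maps `κ w : H²(N_w, A) →+ YE w` (injective: local Hilbert 90),
* semilocal maps `locJ w : H²(N, J) →+ YE w` (jointly injective / surjective on `p`-torsion:
  Shapiro for the `S`-idele module),
* local invariants `inv w : YE w →+ T` (injective on `p`-torsion, onto `T[p]`),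
* the local Kummer squares `hcomm`, and reciprocity `hrec : invC ∘ π_* = ∑_w inv_w ∘ locJ_w`.

`P6Core` is applied with `lam w := inv w ∘ κ w`, `invJ w := inv w ∘ locJ w`; the finiteness of the
local groups `H²(N_w, A)` is now automatic (they embed in `T[p]`, which is cyclic of order `≤ p`).
-/
import Fermat.Agent.S55.S1_67.P6Core

set_option autoImplicit false
set_option linter.style.haveILetI false
set_option maxHeartbeats 400000

open CategoryTheory groupCohomology Module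
open Fermat.Agent.S55.Profin15 Fermat.Agent.S55.Profin15.LevelStr

namespace Fermat.Agent.S55.S1_67.P6Gen

open Fermat.Agent.S55.S1_67.ScalarChange Fermat.Agent.S55.S1_67.P6Core

section Torsion

variable {p : ℕ} [Fact p.Prime] {T : Type} [AddCommGroup T]

/-- if `T[p]` is cyclic then it is finite -/
theorem finite_torsion_of_cyclic
    (hT : ∀ t₀ t : T, p • t₀ = 0 → p • t = 0 → t₀ ≠ 0 → ∃ n : ℕ, t = n • t₀) :
    Finite {t : T // p • t = 0} := by
  by_cases h : ∃ t₀ : T, p • t₀ = 0 ∧ t₀ ≠ 0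
  · obtain ⟨t₀, ht₀, hne⟩ := h
    have hp : 0 < p := (Fact.out : p.Prime).pos
    let g : Fin p → {t : T // p • t = 0} := fun k =>
      ⟨k.val • t₀, by rw [smul_comm, ht₀, smul_zero]⟩
    have hg : Function.Surjective g := by
      rintro ⟨t, ht⟩
      obtain ⟨n, rfl⟩ := hT t₀ t ht₀ ht hne
      refine ⟨⟨n % p, Nat.mod_lt _ hp⟩, Subtype.ext ?_⟩
      show (n % p) • t₀ = n • t₀
      conv_rhs => rw [← Nat.div_add_mod' n p]
      rw [add_smul, mul_smul, ht₀, smul_zero, zero_add]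
    exact Finite.of_surjective g hg
  · have : Subsingleton {t : T // p • t = 0} := by
      refine ⟨fun a b => Subtype.ext ?_⟩
      have ha : a.1 = 0 := by
        by_contra hne
        exact h ⟨a.1, a.2, hne⟩
      have hb : b.1 = 0 := by
        by_contra hne
        exact h ⟨b.1, b.2, hne⟩
      rw [ha, hb]
    infer_instance

/-- a group killed by `p` which embeds additively into `T` is finite when `T[p]` is cyclic -/
theorem finite_of_injective_of_cyclic {Y : Type} [AddCommGroup Y] (lam : Y →+ T)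
    (hlam : Function.Injective lam) (hpY : ∀ y : Y, p • y = 0)
    (hT : ∀ t₀ t : T, p • t₀ = 0 → p • t = 0 → t₀ ≠ 0 → ∃ n : ℕ, t = n • t₀) :
    Finite Y := by
  haveI := finite_torsion_of_cyclic (p := p) hT
  let g : Y → {t : T // p • t = 0} := fun y => ⟨lam y, by rw [← map_nsmul, hpY, map_zero]⟩
  have hg : Function.Injective g := fun a b hab => hlam (Subtype.ext_iff.1 hab)
  exact Finite.of_injective g hg

end Torsion

variable {N : Type} [Group N] (𝒩 : LevelStr N) {p : ℕ} [Fact p.Prime]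
variable {k₀ : Type} [CommRing k₀]
variable {A : Rep.{0} (ZMod p) N} {Z E J C : Rep.{0} k₀ N}
variable (φ : A ≃+ Z) (hφ : IsAddEquivariant φ.toAddMonoidHom)
variable {ι : Z →ₗ[k₀] E} {pw : E →ₗ[k₀] E} {i : E →ₗ[k₀] J} {π : J →ₗ[k₀] C}
variable {W : Type} [Fintype W] {Nw : W → Type} [∀ w, Group (Nw w)]
variable {𝒱 : ∀ w, LevelStr (Nw w)} {f : ∀ w, Nw w →* N}
variable (hf : ∀ w, LevelStr.IsContinuous (𝒱 w) 𝒩 (f w))
variable {T : Type} [AddCommGroup T]
variable {YE : W → Type} [∀ w, AddCommGroup (YE w)]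
variable (κ : ∀ w, (𝒱 w).H2 (Rep.res (f w) A) →+ YE w) (locJ : ∀ w, 𝒩.H2 J →+ YE w)
variable (inv : ∀ w, YE w →+ T) (invC : 𝒩.H2 C →+ T)

omit [Fintype W] in
/-- the local groups `H²(N_w, A)` are killed by `p` -/
lemma nsmul_local_eq_zero (w : W) (η : (𝒱 w).H2 (Rep.res (f w) A)) : p • η = 0 := by
  rw [← Nat.cast_smul_eq_nsmul (ZMod p), ZMod.natCast_self, zero_smul]

omit [Fintype W] in
/-- `lam w := inv w ∘ κ w` is injective -/
lemma lam_injective
    (hκ : ∀ w, Function.Injective (κ w))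
    (hinv_inj : ∀ w (b : YE w), p • b = 0 → inv w b = 0 → b = 0) (w : W) :
    Function.Injective ((inv w).comp (κ w)) := by
  rw [injective_iff_map_eq_zero]
  intro a ha
  apply hκ w
  rw [map_zero]
  refine hinv_inj w _ ?_ ha
  rw [← map_nsmul, nsmul_local_eq_zero, map_zero]

omit [Fintype W] in
/-- `invJ w := inv w ∘ locJ w` are jointly injective on `p`-torsion -/
lemma invJ_inj
    (hJ2 : ∀ y : 𝒩.H2 J, p • y = 0 → (∀ w, locJ w y = 0) → y = 0)
    (hinv_inj : ∀ w (b : YE w), p • b = 0 → inv w b = 0 → b = 0)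
    (y : 𝒩.H2 J) (hy : p • y = 0) (h : ∀ w, ((inv w).comp (locJ w)) y = 0) : y = 0 := by
  refine hJ2 y hy (fun w => hinv_inj w _ ?_ (h w))
  rw [← map_nsmul, hy, map_zero]

omit [Fintype W] in
/-- `invJ w := inv w ∘ locJ w` are jointly onto `T[p]` -/
lemma invJ_surj
    (hJsurj : ∀ η : ∀ w, YE w, (∀ w, p • η w = 0) →
      ∃ y : 𝒩.H2 J, p • y = 0 ∧ ∀ w, locJ w y = η w)
    (hinv_surj : ∀ w (t : T), p • t = 0 → ∃ b : YE w, p • b = 0 ∧ inv w b = t)
    (t : W → T) (ht : ∀ w, p • t w = 0) :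
    ∃ y : 𝒩.H2 J, p • y = 0 ∧ ∀ w, ((inv w).comp (locJ w)) y = t w := by
  have hb : ∀ w, ∃ b : YE w, p • b = 0 ∧ inv w b = t w := fun w => hinv_surj w (t w) (ht w)
  choose b hb0 hbt using hb
  obtain ⟨y, hy, hyb⟩ := hJsurj b hb0
  refine ⟨y, hy, fun w => ?_⟩
  rw [AddMonoidHom.comp_apply, hyb w, hbt w]

/-- **Reciprocity at the level `N`** (input (R) of the count wire): the sum of the local invariants
of a global class of `H²(N, A)` vanishes. -/
theorem sum_inv_κ_res_eq_zero (hK : ShortExact ι pw) (hI : ShortExact i π) (hJ : 𝒩.IsSmooth J)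
    (hcomm : ∀ w (a : 𝒩.H2 A), κ w ((hf w).res₂ A a) =
      locJ w (𝒩.H2map i hI.equivariant_left (𝒩.H2map ι hK.equivariant_left
        (H2add 𝒩 φ.toAddMonoidHom hφ a))))
    (hrec : ∀ y : 𝒩.H2 J, invC (𝒩.H2map π hI.equivariant_right y) = ∑ w, inv w (locJ w y))
    (a : 𝒩.H2 A) : ∑ w, inv w (κ w ((hf w).res₂ A a)) = 0 := by
  have h := sum_lam_res_eq_zero 𝒩 φ hφ hf (fun w => (inv w).comp (locJ w)) invC
    (fun w => (inv w).comp (κ w)) hK hI hJ hrec
    (fun w a => by rw [AddMonoidHom.comp_apply, AddMonoidHom.comp_apply, hcomm]) a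
  exact h

omit [Fintype W] in
/-- **Kernel half at the level `N`** (input `hsha` of the count wire): a class of `H²(N, A)` is
locally trivial iff its image in `H²(N, Z)` lies in the range of the Kummer connecting map. -/
theorem ker_res_iff_gen (hK : ShortExact ι pw) (hpw : ∀ e, pw e = p • e) (hI : ShortExact i π)
    (hE : 𝒩.IsSmooth E) (hJ : 𝒩.IsSmooth J)
    (hJ1 : ∀ x : 𝒩.H1 J, x = 0)
    (hC1 : ∀ c : 𝒩.H1 C, p • c = 0 → c = 0)
    (hκ : ∀ w, Function.Injective (κ w))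
    (hcomm : ∀ w (a : 𝒩.H2 A), κ w ((hf w).res₂ A a) =
      locJ w (𝒩.H2map i hI.equivariant_left (𝒩.H2map ι hK.equivariant_left
        (H2add 𝒩 φ.toAddMonoidHom hφ a))))
    (hJ2 : ∀ y : 𝒩.H2 J, p • y = 0 → (∀ w, locJ w y = 0) → y = 0)
    (a : 𝒩.H2 A) :
    (∀ w, (hf w).res₂ A a = 0) ↔
      H2add 𝒩 φ.toAddMonoidHom hφ a ∈ LinearMap.range (hK.δ₁ 𝒩 hE) := by
  have hcomm' : ∀ w (x : 𝒩.H2 Z), κ w (locZ 𝒩 φ hφ hf w x) =
      locJ w (𝒩.H2map i hI.equivariant_left (𝒩.H2map ι hK.equivariant_left x)) := by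
    intro w x
    obtain ⟨a, rfl⟩ := (H2addEquiv 𝒩 φ hφ).surjective x
    rw [H2addEquiv_apply, locZ_apply, hcomm]
  rw [← Level.sha2_iff 𝒩 (YZ := fun w : W => (𝒱 w).H2 (Rep.res (f w) A)) (YE := YE) κ
    (locZ 𝒩 φ hφ hf) locJ hK hpw hI hE hJ hJ1 hC1 hκ hcomm' hJ2]
  simp only [locZ_apply]

/-- **(P6) at one level, standard local shape.**  `H²(N, A)` is a finite `𝔽_p`-module and the
cokernel of the total localisation map has dimension at most one. -/
theorem p6_core_gen (hK : ShortExact ι pw) (hpw : ∀ e, pw e = p • e) (hI : ShortExact i π)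
    (hE : 𝒩.IsSmooth E) (hJ : 𝒩.IsSmooth J)
    (hJ1 : ∀ x : 𝒩.H1 J, x = 0)
    (hC1 : ∀ c : 𝒩.H1 C, p • c = 0 → c = 0)
    (hκ : ∀ w, Function.Injective (κ w))
    (hcomm : ∀ w (a : 𝒩.H2 A), κ w ((hf w).res₂ A a) =
      locJ w (𝒩.H2map i hI.equivariant_left (𝒩.H2map ι hK.equivariant_left
        (H2add 𝒩 φ.toAddMonoidHom hφ a))))
    (hJ2 : ∀ y : 𝒩.H2 J, p • y = 0 → (∀ w, locJ w y = 0) → y = 0)
    (hJsurj : ∀ η : ∀ w, YE w, (∀ w, p • η w = 0) →
      ∃ y : 𝒩.H2 J, p • y = 0 ∧ ∀ w, locJ w y = η w)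
    (hinv_inj : ∀ w (b : YE w), p • b = 0 → inv w b = 0 → b = 0)
    (hinv_surj : ∀ w (t : T), p • t = 0 → ∃ b : YE w, p • b = 0 ∧ inv w b = t)
    (hinjC : ∀ c : 𝒩.H2 C, p • c = 0 → invC c = 0 → c = 0)
    (hrec : ∀ y : 𝒩.H2 J, invC (𝒩.H2map π hI.equivariant_right y) = ∑ w, inv w (locJ w y))
    (hT : ∀ t₀ t : T, p • t₀ = 0 → p • t = 0 → t₀ ≠ 0 → ∃ n : ℕ, t = n • t₀)
    (hfin1 : Finite (𝒩.H1 A)) :
    Module.Finite (ZMod p) (𝒩.H2 A) ∧
      ∑ w, finrank (ZMod p) ((𝒱 w).H2 (Rep.res (f w) A)) ≤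
        finrank (ZMod p) (LinearMap.range (resTotal 𝒩 (A := A) hf)) + 1 := by
  have hlam := lam_injective (p := p) κ inv hκ hinv_inj
  have hfinY : ∀ w, Finite ((𝒱 w).H2 (Rep.res (f w) A)) := fun w =>
    finite_of_injective_of_cyclic (p := p) ((inv w).comp (κ w)) (hlam w)
      (nsmul_local_eq_zero w) hT
  have h1 := p6_core 𝒩 φ hφ hf (fun w => (inv w).comp (locJ w)) invC
    (fun w => (inv w).comp (κ w)) hK hpw hI hE hJ hJ1 hC1
  have h2 := h1 (invJ_inj 𝒩 locJ inv hJ2 hinv_inj) (invJ_surj 𝒩 locJ inv hJsurj hinv_surj)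
    hinjC hrec hlam
    (fun w a => by rw [AddMonoidHom.comp_apply, AddMonoidHom.comp_apply, hcomm])
  exact h2 hT hfin1 hfinY

/-! ### the same with the local Kummer maps given on `Z`-coefficients (no choice of `φ` in the data)

In the application `Z = μ_p` and the local Kummer maps `κZ w : H²(N_w, μ_p) →+ H²(N_w, Ω_w^×)` are
canonical; the identification `φ : 𝔽_p ≃ μ_p` (a choice of `ζ_p`) only enters the proof. -/

section ZCoeff

variable (κZ : ∀ w, (𝒱 w).H2 (Rep.res (f w) Z) →+ YE w)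

/-- `φ` between the restricted representations, as an additive equivalence -/
def resEquiv (w : W) : (Rep.res (f w) A) ≃+ (Rep.res (f w) Z) := φ

omit [Fintype W] in
include hφ in
lemma resEquiv_isAddEquivariant (w : W) :
    IsAddEquivariant (M := Rep.res (f w) A) (M' := Rep.res (f w) Z)
      (resEquiv (f := f) φ w).toAddMonoidHom :=
  fun h m => hφ (f w h) m

/-- the local Kummer maps transported to `A`-coefficients along `φ` -/
noncomputable def κA (w : W) : (𝒱 w).H2 (Rep.res (f w) A) →+ YE w :=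
  (κZ w).comp (H2addEquiv (𝒱 w) (resEquiv (f := f) φ w)
    (resEquiv_isAddEquivariant φ hφ w)).toAddMonoidHom

omit [Fintype W] in
lemma κA_injective (hκZ : ∀ w, Function.Injective (κZ w)) (w : W) :
    Function.Injective (κA (𝒱 := 𝒱) φ hφ κZ w) := by
  intro a b hab
  have h1 := hκZ w hab
  exact (H2addEquiv (𝒱 w) (resEquiv (f := f) φ w)
    (resEquiv_isAddEquivariant φ hφ w)).injective h1

omit [Fintype W] in
lemma κA_res (w : W) (a : 𝒩.H2 A) :
    κA (𝒱 := 𝒱) φ hφ κZ w ((hf w).res₂ A a) =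
      κZ w ((hf w).res₂ Z (H2add 𝒩 φ.toAddMonoidHom hφ a)) := by
  have h := res₂_H2add (hf w) hφ a
  show κZ w (H2add (𝒱 w) _ _ ((hf w).res₂ A a)) = _
  rw [h]
  rfl

include φ hφ in
/-- **(P6) at one level**, local Kummer maps on `Z`-coefficients. -/
theorem p6_core_genZ (hK : ShortExact ι pw) (hpw : ∀ e, pw e = p • e) (hI : ShortExact i π)
    (hE : 𝒩.IsSmooth E) (hJ : 𝒩.IsSmooth J)
    (hJ1 : ∀ x : 𝒩.H1 J, x = 0)
    (hC1 : ∀ c : 𝒩.H1 C, p • c = 0 → c = 0)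
    (hκZ : ∀ w, Function.Injective (κZ w))
    (hcommZ : ∀ w (x : 𝒩.H2 Z), κZ w ((hf w).res₂ Z x) =
      locJ w (𝒩.H2map i hI.equivariant_left (𝒩.H2map ι hK.equivariant_left x)))
    (hJ2 : ∀ y : 𝒩.H2 J, p • y = 0 → (∀ w, locJ w y = 0) → y = 0)
    (hJsurj : ∀ η : ∀ w, YE w, (∀ w, p • η w = 0) →
      ∃ y : 𝒩.H2 J, p • y = 0 ∧ ∀ w, locJ w y = η w)
    (hinv_inj : ∀ w (b : YE w), p • b = 0 → inv w b = 0 → b = 0)
    (hinv_surj : ∀ w (t : T), p • t = 0 → ∃ b : YE w, p • b = 0 ∧ inv w b = t)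
    (hinjC : ∀ c : 𝒩.H2 C, p • c = 0 → invC c = 0 → c = 0)
    (hrec : ∀ y : 𝒩.H2 J, invC (𝒩.H2map π hI.equivariant_right y) = ∑ w, inv w (locJ w y))
    (hT : ∀ t₀ t : T, p • t₀ = 0 → p • t = 0 → t₀ ≠ 0 → ∃ n : ℕ, t = n • t₀)
    (hfin1 : Finite (𝒩.H1 A)) :
    Module.Finite (ZMod p) (𝒩.H2 A) ∧
      ∑ w, finrank (ZMod p) ((𝒱 w).H2 (Rep.res (f w) A)) ≤
        finrank (ZMod p) (LinearMap.range (resTotal 𝒩 (A := A) hf)) + 1 := by
  have h1 := p6_core_gen 𝒩 φ hφ hf (κA (𝒱 := 𝒱) φ hφ κZ) locJ inv invC hK hpw hI hE hJ hJ1 hC1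
    (κA_injective φ hφ κZ hκZ)
    (fun w a => by rw [κA_res 𝒩 φ hφ hf κZ w a, hcommZ])
  exact h1 hJ2 hJsurj hinv_inj hinv_surj hinjC hrec hT hfin1

/-- **Reciprocity at the level `N`**, `Z`-coefficients: the sum of the local invariants of a global
class of `H²(N, Z)` vanishes (no injectivity needed). -/
theorem sum_inv_κZ_res_eq_zero (hK : ShortExact ι pw) (hI : ShortExact i π) (hJ : 𝒩.IsSmooth J)
    (hcommZ : ∀ w (x : 𝒩.H2 Z), κZ w ((hf w).res₂ Z x) =
      locJ w (𝒩.H2map i hI.equivariant_left (𝒩.H2map ι hK.equivariant_left x)))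
    (hrec : ∀ y : 𝒩.H2 J, invC (𝒩.H2map π hI.equivariant_right y) = ∑ w, inv w (locJ w y))
    (x : 𝒩.H2 Z) : ∑ w, inv w (κZ w ((hf w).res₂ Z x)) = 0 := by
  have h := Level.sum_inv_loc_eq_zero 𝒩 (YZ := fun w : W => (𝒱 w).H2 (Rep.res (f w) Z))
    (YE := YE) κZ (fun w => ((hf w).res₂ Z).toAddMonoidHom) locJ inv invC hK hI hJ
    (fun w x => hcommZ w x) hrec x
  exact h

end ZCoeff

end Fermat.Agent.S55.S1_67.P6Gen
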