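/-
[46-S1 / P6] (helper67): INSTANTIATION of `P6Gen.p6_core_genZ` over `G_ℚ`.

For a level `U` of `globalLevels S` on which `μ_p` is trivial put `V := (QuotientGroup.mk' U).ker`
(`= U`) with the level structure `levV S V _` (`= kerLevels (globalLevels S) _`), and
`(Z, E, J, C) := (μ_p, E_S, J_S, J_S/E_S)` restricted to `V` (helper41 `S1Limit41.Global`:
`ZV`, `EV`, `JV`, `CV`, `kummerV`, `ideleV`).  The local groups are indexed by
`w = ⟨q, ρ⟩ : Σ q : ↥S, (τ q).R` (the places of the fixed field of `U` above `S`):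
`N_w = ((mk' U).comp r_q).ker` with `kerLevels (pullLevels r_q) _`, embedded by
`conjKer (mk' U) r_q (t q ρ)` (helper32 `ShapiroLevel32.Mackey`).

Discharged inside: `hJ1` (helper94 `GlobalMod94.H1.H1_JSp_eq_zero`), `hfin1` (helper23
`CountWire23.finH1_levU`), `hT` (`QZ33`), `φ : 𝔽_p ≃ μ_p` (helper92 `muTrivEquiv`, a primitive root
from `ESKummer20.exists_primitiveRoot`).

Remaining NAMED inputs at each level `U` (`= ` the limit formation datum (A3) in the component shape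
of `P1Lim62.Datum.CompDatum` + the local Kummer squares): `YE κ locJ inv invC` with
`hκ hcomm hJ2 hJsurj hinv_inj hinv_surj hC1 hinjC hrec`.

Conclusions: `kernel_level_of_datum` (the body of helper82's `P6Transport82.KernelCokerDim`),
`globalCokerDimL_at_of_datum`, and `globalCokerDim_of_datum : … → Contract34.GlobalCokerDim p S`.
-/
import Fermat.Agent.S55.S1_67.P6Gen
import Fermat.Agent.S55.S1Limit41.Global
import Fermat.Agent.S55.P6Transport82.Global
import Fermat.Agent.S55.S2Count92.KummerKQ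
import Fermat.Agent.S55.CountWire23.FinH1
import Fermat.Agent.S55.GlobalMod94.H1
import Fermat.Agent.S55.QZ33

set_option autoImplicit false
set_option linter.style.haveILetI false
set_option linter.unusedSectionVars false
set_option maxHeartbeats 800000

open CategoryTheory groupCohomology Module ExtCitation

namespace Fermat.Agent.S55.S1_67.P6Inst

open Fermat.Agent.S55.Profin15 Fermat.Agent.S55.Profin15.LevelStr
open Fermat.Agent.S55.ShapiroLevel32 Fermat.Agent.S55.P6Transport82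
open Fermat.Agent.S55.S1Limit41.Global
open Fermat.Agent.S55.GlobalMod94.JS Fermat.Agent.S55.ESRep20 Fermat.Agent.S55.ESKummer20
open Fermat.Agent.S55.QZ33
open Fermat.Agent.Lib.FrobeniusExists (Qb GQ)
open Fermat.Agent.S55.Contract34
open Fermat.Agent.S55.S1_67.ScalarChange

/-! ### `T[p]` is cyclic for `T = ℚ/ℤ` -/

theorem QZ_cyclic (p : ℕ) [Fact p.Prime] (t₀ t : QZ) (ht₀ : p • t₀ = 0) (ht : p • t = 0)
    (hne : t₀ ≠ 0) : ∃ n : ℕ, t = n • t₀ := by
  have hp0 : p ≠ 0 := (Fact.out : p.Prime).ne_zero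
  obtain ⟨x₀, rfl⟩ := QZ.mem_range_jT hp0 ht₀
  obtain ⟨x, rfl⟩ := QZ.mem_range_jT hp0 ht
  have hx₀ : x₀ ≠ 0 := by
    rintro rfl
    exact hne (map_zero _)
  refine ⟨(x * x₀⁻¹).val, ?_⟩
  rw [← map_nsmul]
  congr 1
  rw [nsmul_eq_mul, ZMod.natCast_zmod_val, mul_assoc, inv_mul_cancel₀ hx₀, mul_one]

variable {p : ℕ} [Fact p.Prime]

/-! ### (P6) over an arbitrary open subgroup `V` fixing `μ_p`, for an arbitrary finite family of
local groups -/

section General

variable (S : Finset Nat.Primes) (V : Subgroup GQ) (hV : CD3.IsOpenSub (globalLevels S) V)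
variable {W : Type} [Fintype W] {Nw : W → Type} [∀ w, Group (Nw w)]
variable {𝒱 : ∀ w, LevelStr (Nw w)} {f : ∀ w, Nw w →* ↥V}
variable (hf : ∀ w, LevelStr.IsContinuous (𝒱 w) (levV S V hV) (f w))
variable {YE : W → Type} [∀ w, AddCommGroup (YE w)]
variable (κ : ∀ w, (𝒱 w).H2 (Rep.res (f w) (ZV V p)) →+ YE w)
variable (locJ : ∀ w, (levV S V hV).H2 (JV S V) →+ YE w)
variable (inv : ∀ w, YE w →+ QZ)
variable (invC : (levV S V hV).H2 (CV S V) →+ QZ)

/-- `𝔽_p ≃ μ_p` over `V` (a choice of a primitive root) -/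
noncomputable def muTrivV (ζ : Qbˣ) (hζ : IsPrimitiveRoot ζ p) : triv (ZMod p) ↥V ≃+ ZV V p :=
  S2Count92.muEquiv ζ hζ

theorem muTrivV_isAddEquivariant (ζ : Qbˣ) (hζ : IsPrimitiveRoot ζ p)
    (hμV : ∀ σ ∈ V, cycloChar p σ = 1) :
    IsAddEquivariant (M := triv (ZMod p) ↥V) (M' := ZV V p)
      (muTrivV V ζ hζ).toAddMonoidHom := by
  intro g a
  have h1 := muHom_equivariant ζ hζ.pow_eq_one (g : GQ) a
  rw [hμV (g : GQ) g.2, Units.val_one, one_mul] at h1
  exact h1

/-- **(P6) over `V`** for an arbitrary finite family `f w : N_w →* V` of local groups, from the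
named arithmetic inputs. -/
theorem p6_at_V (hpS : pPrime p ∈ S) (hμV : ∀ σ ∈ V, cycloChar p σ = 1)
    (hκ : ∀ w, Function.Injective (κ w))
    (hcomm : ∀ (w : W) (x : (levV S V hV).H2 (ZV V p)),
      κ w ((hf w).res₂ (ZV V p) x) =
        locJ w ((levV S V hV).H2map _ (ideleV S V (nonempty_of_mem S hpS)).equivariant_left
          ((levV S V hV).H2map _ (kummerV S V hpS).equivariant_left x)))
    (hJ2 : ∀ y : (levV S V hV).H2 (JV S V), p • y = 0 → (∀ w, locJ w y = 0) → y = 0)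
    (hJsurj : ∀ η : ∀ w, YE w, (∀ w, p • η w = 0) →
      ∃ y : (levV S V hV).H2 (JV S V), p • y = 0 ∧ ∀ w, locJ w y = η w)
    (hinv_inj : ∀ w (b : YE w), p • b = 0 → inv w b = 0 → b = 0)
    (hinv_surj : ∀ w (s : QZ), p • s = 0 → ∃ b : YE w, p • b = 0 ∧ inv w b = s)
    (hC1 : ∀ c : (levV S V hV).H1 (CV S V), p • c = 0 → c = 0)
    (hinjC : ∀ c : (levV S V hV).H2 (CV S V), p • c = 0 → invC c = 0 → c = 0)
    (hrec : ∀ y : (levV S V hV).H2 (JV S V),
      invC ((levV S V hV).H2map _ (ideleV S V (nonempty_of_mem S hpS)).equivariant_right y) =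
        ∑ w, inv w (locJ w y))
    (hfin1 : Finite ((levV S V hV).H1 (triv (ZMod p) ↥V))) :
    Module.Finite (ZMod p) ((levV S V hV).H2 (triv (ZMod p) ↥V)) ∧
      ∑ w, finrank (ZMod p) ((𝒱 w).H2 (Rep.res (f w) (triv (ZMod p) ↥V))) ≤
        finrank (ZMod p) (LinearMap.range
          (P6Core.resTotal (levV S V hV) (A := triv (ZMod p) ↥V) hf)) + 1 := by
  obtain ⟨ζ, hζ⟩ := exists_primitiveRoot p
  have h1 := P6Gen.p6_core_genZ (levV S V hV)
    (A := triv (ZMod p) ↥V) (Z := ZV V p) (E := EV S V) (J := JV S V) (C := CV S V)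
    (muTrivV V ζ hζ) (muTrivV_isAddEquivariant V ζ hζ hμV) hf (T := QZ) (YE := YE)
    locJ inv invC κ
    (kummerV S V hpS) (kummerV_pw S V) (ideleV S V (nonempty_of_mem S hpS))
    (EV_isSmooth S V hV) (JV_isSmooth S V hV)
    (GlobalMod94.H1.H1_JSp_eq_zero S V hV) hC1 hκ hcomm hJ2 hJsurj hinv_inj
    hinv_surj hinjC hrec (QZ_cyclic p) hfin1
  exact h1

end General

/-! ### the conjugate family at a level `U` (helper32 / helper82 transport vocabulary) -/

variable {S : Finset Nat.Primes} {U : Subgroup GQ} [U.Normal]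

/-- the open subgroup `V = ker (G_ℚ → G_ℚ/U)` (`= U`) -/
noncomputable abbrev VU (U : Subgroup GQ) [U.Normal] : Subgroup GQ := (QuotientGroup.mk' U).ker

/-- the level structure of the local group `r_q⁻¹(U)` -/
noncomputable abbrev locLev (hU : U ∈ (globalLevels S).levels) (q : ↥S) :
    LevelStr ↥((QuotientGroup.mk' U).comp (rS S q)).ker :=
  kerLevels (pullLevels (rS S q)) (hker' (hker_mk hU) (hrS S) q)

variable (τ : ∀ q : ↥S, OrbSect ((QuotientGroup.mk' U).comp (rS S q)))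
  (t : ∀ q : ↥S, (τ q).R → GQ)

/-- the embedding of the local group at the place `w = ⟨q, ρ⟩` -/
noncomputable abbrev cj (w : Σ q : ↥S, (τ q).R) :
    ↥((QuotientGroup.mk' U).comp (rS S w.1)).ker →* ↥(VU U) :=
  conjKer (QuotientGroup.mk' U) (rS S w.1) (t w.1 w.2)

lemma hcj (hU : U ∈ (globalLevels S).levels) (w : Σ q : ↥S, (τ q).R) :
    LevelStr.IsContinuous (locLev hU w.1) (levV S (VU U) (hker_mk hU)) (cj τ t w) :=
  isContinuous_conjKer (hrS S w.1) (hker_mk hU) (hker' (hker_mk hU) (hrS S) w.1) (t w.1 w.2)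

section Datum

variable (hU : U ∈ (globalLevels S).levels) (hpS : pPrime p ∈ S)
variable [∀ q, Fintype (τ q).R]
variable {YE : (Σ q : ↥S, (τ q).R) → Type} [∀ w, AddCommGroup (YE w)]
variable (κ : ∀ w : Σ q : ↥S, (τ q).R,
    (locLev hU w.1).H2 (Rep.res (cj τ t w) (ZV (VU U) p)) →+ YE w)
variable (locJ : ∀ w : Σ q : ↥S, (τ q).R,
    (levV S (VU U) (hker_mk hU)).H2 (JV S (VU U)) →+ YE w)
variable (inv : ∀ w : Σ q : ↥S, (τ q).R, YE w →+ QZ)
variable (invC : (levV S (VU U) (hker_mk hU)).H2 (CV S (VU U)) →+ QZ)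

/-- **(P6) at the kernel level `U`** from the named arithmetic inputs: the body of
`P6Transport82.KernelCokerDim` for the orbit data `(τ, t)`. -/
theorem kernel_level_of_datum (hmu : ∀ s ∈ U, (mu p).ρ s = 1)
    (hκ : ∀ w, Function.Injective (κ w))
    (hcomm : ∀ (w : Σ q : ↥S, (τ q).R) (x : (levV S (VU U) (hker_mk hU)).H2 (ZV (VU U) p)),
      κ w ((hcj τ t hU w).res₂ (ZV (VU U) p) x) =
        locJ w ((levV S (VU U) (hker_mk hU)).H2map _
          (ideleV S (VU U) (nonempty_of_mem S hpS)).equivariant_left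
          ((levV S (VU U) (hker_mk hU)).H2map _ (kummerV S (VU U) hpS).equivariant_left x)))
    (hJ2 : ∀ y : (levV S (VU U) (hker_mk hU)).H2 (JV S (VU U)), p • y = 0 →
      (∀ w, locJ w y = 0) → y = 0)
    (hJsurj : ∀ η : ∀ w, YE w, (∀ w, p • η w = 0) →
      ∃ y : (levV S (VU U) (hker_mk hU)).H2 (JV S (VU U)), p • y = 0 ∧ ∀ w, locJ w y = η w)
    (hinv_inj : ∀ w (b : YE w), p • b = 0 → inv w b = 0 → b = 0)
    (hinv_surj : ∀ w (s : QZ), p • s = 0 → ∃ b : YE w, p • b = 0 ∧ inv w b = s)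
    (hC1 : ∀ c : (levV S (VU U) (hker_mk hU)).H1 (CV S (VU U)), p • c = 0 → c = 0)
    (hinjC : ∀ c : (levV S (VU U) (hker_mk hU)).H2 (CV S (VU U)), p • c = 0 → invC c = 0 → c = 0)
    (hrec : ∀ y : (levV S (VU U) (hker_mk hU)).H2 (JV S (VU U)),
      invC ((levV S (VU U) (hker_mk hU)).H2map _
        (ideleV S (VU U) (nonempty_of_mem S hpS)).equivariant_right y) =
        ∑ w, inv w (locJ w y)) :
    Module.Finite (ZMod p) ((kerLevels (globalLevels S) (hker_mk hU)).H2
        (triv (ZMod p) ↥(QuotientGroup.mk' U).ker)) ∧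
      ∑ w : Σ q : ↥S, (τ q).R, finrank (ZMod p) (KH2 (ZMod p) (hker_mk hU) (hrS S) w.1) ≤
        finrank (ZMod p) (LinearMap.range (kerTot (ZMod p) (hker_mk hU) (hrS S) τ t)) + 1 := by
  have hμ : ∀ σ ∈ VU U, cycloChar p σ = 1 := S2Count92.cycloChar_eq_one_of_mu_piU hmu
  have hfin1 : Finite ((levV S (VU U) (hker_mk hU)).H1 (triv (ZMod p) ↥(VU U))) := by
    haveI : Module.Finite (ZMod p) ((CountWire23.levU S U hU).H1 (CountWire23.kU p U)) :=
      CountWire23.finH1_levU U hU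
    exact (Module.finite_of_finite (ZMod p) :
      Finite ((CountWire23.levU S U hU).H1 (CountWire23.kU p U)))
  have h1 := p6_at_V S (VU U) (hker_mk hU) (hcj τ t hU) κ locJ inv invC hpS hμ hκ hcomm hJ2
    hJsurj hinv_inj hinv_surj hC1 hinjC hrec hfin1
  exact h1

end Datum

/-! ### the packaged datum and the literal plug (P6) -/

section Plug

variable (p) (S)

/-- **the named arithmetic inputs of (P6) at the level `U`**, for the orbit data `(τ, t)`:
local Brauer groups `YE w`, local Kummer maps `κ w` (on `μ_p`-coefficients), semilocal maps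
`locJ w`, local invariants `inv w`, the global invariant `invC` on `H²(U, J_S/E_S)`, and their nine
properties.  (= the limit formation datum (A3) at `V = U` in component form + the local Kummer
squares.) -/
def LevelDatum (hpS : pPrime p ∈ S) (U : Subgroup GQ) [U.Normal]
    (hU : U ∈ (globalLevels S).levels)
    (τ : ∀ q : ↥S, OrbSect ((QuotientGroup.mk' U).comp (rS S q))) [∀ q, Fintype (τ q).R]
    (t : ∀ q : ↥S, (τ q).R → GQ) : Prop :=
  ∃ (YE : (Σ q : ↥S, (τ q).R) → Type) (_ : ∀ w, AddCommGroup (YE w))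
    (κ : ∀ w : Σ q : ↥S, (τ q).R,
      (locLev hU w.1).H2 (Rep.res (cj τ t w) (ZV (VU U) p)) →+ YE w)
    (locJ : ∀ w : Σ q : ↥S, (τ q).R,
      (levV S (VU U) (hker_mk hU)).H2 (JV S (VU U)) →+ YE w)
    (inv : ∀ w : Σ q : ↥S, (τ q).R, YE w →+ QZ)
    (invC : (levV S (VU U) (hker_mk hU)).H2 (CV S (VU U)) →+ QZ),
    (∀ w, Function.Injective (κ w)) ∧
    (∀ (w : Σ q : ↥S, (τ q).R) (x : (levV S (VU U) (hker_mk hU)).H2 (ZV (VU U) p)),
      κ w ((hcj τ t hU w).res₂ (ZV (VU U) p) x) =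
        locJ w ((levV S (VU U) (hker_mk hU)).H2map _
          (ideleV S (VU U) (nonempty_of_mem S hpS)).equivariant_left
          ((levV S (VU U) (hker_mk hU)).H2map _ (kummerV S (VU U) hpS).equivariant_left x))) ∧
    (∀ y : (levV S (VU U) (hker_mk hU)).H2 (JV S (VU U)), p • y = 0 →
      (∀ w, locJ w y = 0) → y = 0) ∧
    (∀ η : ∀ w, YE w, (∀ w, p • η w = 0) →
      ∃ y : (levV S (VU U) (hker_mk hU)).H2 (JV S (VU U)), p • y = 0 ∧ ∀ w, locJ w y = η w) ∧
    (∀ w (b : YE w), p • b = 0 → inv w b = 0 → b = 0) ∧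
    (∀ w (s : QZ), p • s = 0 → ∃ b : YE w, p • b = 0 ∧ inv w b = s) ∧
    (∀ c : (levV S (VU U) (hker_mk hU)).H1 (CV S (VU U)), p • c = 0 → c = 0) ∧
    (∀ c : (levV S (VU U) (hker_mk hU)).H2 (CV S (VU U)), p • c = 0 → invC c = 0 → c = 0) ∧
    (∀ y : (levV S (VU U) (hker_mk hU)).H2 (JV S (VU U)),
      invC ((levV S (VU U) (hker_mk hU)).H2map _
        (ideleV S (VU U) (nonempty_of_mem S hpS)).equivariant_right y) =
        ∑ w, inv w (locJ w y))

variable {p S}

/-- **(P6) in level cohomology at ONE level `U`** (the body of `Profin15.Plug.GlobalCokerDimL`)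
from the packaged datum. -/
theorem globalCokerDimL_at_of_datum (hpS : pPrime p ∈ S) {U : Subgroup GQ} [U.Normal]
    (hU : U ∈ (globalLevels S).levels) (hmu : ∀ s ∈ U, (mu p).ρ s = 1)
    (τ : ∀ q : ↥S, OrbSect ((QuotientGroup.mk' U).comp (rS S q))) [∀ q, Fintype (τ q).R]
    (t : ∀ q : ↥S, (τ q).R → GQ)
    (ht : ∀ (q : ↥S) (ρ : (τ q).R), QuotientGroup.mk' U (t q ρ) = (ρ : GQ ⧸ U))
    (D : LevelDatum p S hpS U hU τ t) :
    Module.Finite (ZMod p) ((globalLevels S).H2 (perm p U)) ∧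
    ∑ q : ↥S, finrank (ZMod p)
        ((pullLevels (primeLocalToGlobal q.1)).H2
          (Rep.res (primeLocalToGlobal q.1) (perm p U))) ≤
      finrank (ZMod p) (LinearMap.range (Plug.locTotal p S (perm p U))) + 1 := by
  obtain ⟨YE, instYE, κ, locJ, inv, invC, h1, h2, h3, h4, h5, h6, h7, h8, h9⟩ := D
  obtain ⟨hfin, hle⟩ := kernel_level_of_datum τ t hU hpS κ locJ inv invC hmu h1 h2 h3 h4 h5 h6
    h7 h8 h9
  exact globalCokerDimL_at_level p S hU τ t ht hfin hle

/-- **(P6) `Contract34.GlobalCokerDim p S`, LITERALLY, from the named arithmetic inputs at every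
level `U` on which `μ_p` is trivial** (for SOME choice of orbit data at each level). -/
theorem globalCokerDim_of_datum (hpS : pPrime p ∈ S)
    (h : ∀ (U : Subgroup GQ) [U.Normal] (hU : U ∈ (globalLevels S).levels),
      (∀ s ∈ U, (mu p).ρ s = 1) →
      ∃ (τ : ∀ q : ↥S, OrbSect ((QuotientGroup.mk' U).comp (rS S q)))
        (_ : ∀ q, Fintype (τ q).R) (t : ∀ q : ↥S, (τ q).R → GQ),
        (∀ (q : ↥S) (ρ : (τ q).R), QuotientGroup.mk' U (t q ρ) = (ρ : GQ ⧸ U)) ∧
          LevelDatum p S hpS U hU τ t) :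
    Contract34.GlobalCokerDim p S := by
  refine (Plug.globalCokerDim_iff p S).2 (fun U hU hmu => ?_)
  haveI hUn : U.Normal := (globalLevels S).normal U hU
  obtain ⟨τ, instτ, t, ht, D⟩ := h U hU hmu
  exact globalCokerDimL_at_of_datum hpS hU hmu τ t ht D

end Plug

end Fermat.Agent.S55.S1_67.P6Inst
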