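/-
[46-S1] (helper67): naturality of the connecting maps of `Profin15.LevelStr.ShortExact` in the short
exact sequence, and the resulting criterion for "corestriction kills `Ш²`".

In the coinduced formulation of (S1) (`G = G_ℚ`, modules `Fun(Gal(L/ℚ), -)`), corestriction
`H²(G_{L,S}, μ_p) → H²(G_{L₀,S}, μ_p)` is the map induced on coefficients by the projection
`Fun(Gal(L/ℚ), -) → Fun(Gal(L₀/ℚ), -)` (sum over the fibres), so "natural for corestriction" is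
just naturality of `δ₀`, `δ₁` in the coefficient sequence.
-/
import Fermat.Agent.S55.S1_67.Level

set_option autoImplicit false

universe u

open CategoryTheory groupCohomology
open Fermat.Agent.S55.Profin15 Fermat.Agent.S55.Profin15.LevelStr

namespace Fermat.Agent.S55.S1_67.Natural

variable {k G : Type u} [CommRing k] [Group G] (𝒰 : LevelStr G)

section Connecting

variable {A B C A' B' C' : Rep.{u} k G}
variable {φ : A →ₗ[k] B} {ψ : B →ₗ[k] C} {φ' : A' →ₗ[k] B'} {ψ' : B' →ₗ[k] C'}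
variable {a : A →ₗ[k] A'} {b : B →ₗ[k] B'} {c : C →ₗ[k] C'}

/-- Naturality of `δ₁ : H¹(C) → H²(A)` in the short exact sequence. -/
theorem δ₁_natural (h : ShortExact φ ψ) (h' : ShortExact φ' ψ')
    (hB : 𝒰.IsSmooth B) (hB' : 𝒰.IsSmooth B')
    (ha : IsEquivariant a) (hb : IsEquivariant b) (hc : IsEquivariant c)
    (hl : ∀ x, φ' (a x) = b (φ x)) (hr : ∀ y, ψ' (b y) = c (ψ y))
    (x : 𝒰.H1 C) :
    𝒰.H2map a ha (h.δ₁ 𝒰 hB x) = h'.δ₁ 𝒰 hB' (𝒰.H1map c hc x) := by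
  obtain ⟨z, rfl⟩ := Submodule.Quotient.mk_surjective _ x
  obtain ⟨y, hy, hyz⟩ := h.exists_lift₁ 𝒰 z.2.2
  have hdy : (d₁₂ B).hom y ∈ 𝒰.C₂ B := hB.d₁₂_mem_C₂ hy
  have hψdy : comp₂ ψ ((d₁₂ B).hom y) = 0 := by
    rw [comp₂_d₁₂ ψ h.equivariant_right y, hyz]
    exact LinearMap.mem_ker.1 z.2.1
  obtain ⟨w, hw, hφw⟩ := h.exists_comp₂_eq 𝒰 hdy hψdy
  have hwcoc : w ∈ cocycles₂ A := by
    apply h.mem_cocycles₂_of_comp₂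
    rw [hφw]
    exact coboundaries₂_le_cocycles₂ B ⟨y, rfl⟩
  have e1 : h.δ₁ 𝒰 hB (𝒰.H1π C z) = 𝒰.H2π A ⟨w, hwcoc, hw⟩ :=
    h.δ₁_eq 𝒰 hB z y hy hyz ⟨w, hwcoc, hw⟩ hφw
  have hy' : comp₁ b y ∈ 𝒰.C₁ B' := 𝒰.comp₁_mem_C₁ b hy
  have e2 : h'.δ₁ 𝒰 hB' (𝒰.H1π C' (𝒰.Z₁map c hc z)) =
      𝒰.H2π A' (𝒰.Z₂map a ha ⟨w, hwcoc, hw⟩) := by
    refine h'.δ₁_eq 𝒰 hB' (𝒰.Z₁map c hc z) (comp₁ b y) hy' ?_ _ ?_
    · funext g
      show ψ' (b (y g)) = c ((z : G → C) g)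
      rw [hr, ← hyz]
      rfl
    · show comp₂ φ' (comp₂ a w) = (d₁₂ B').hom (comp₁ b y)
      rw [← comp₂_d₁₂ b hb y, ← hφw]
      funext g
      show φ' (a (w g)) = b (φ (w g))
      exact hl _
  show 𝒰.H2map a ha (h.δ₁ 𝒰 hB (𝒰.H1π C z)) = h'.δ₁ 𝒰 hB' (𝒰.H1map c hc (𝒰.H1π C z))
  rw [e1, H1map_H1π, e2, H2map_H2π]

/-- Naturality of `δ₀ : H⁰(C) → H¹(A)` in the short exact sequence. -/
theorem δ₀_natural (h : ShortExact φ ψ) (h' : ShortExact φ' ψ')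
    (hB : 𝒰.IsSmooth B) (hB' : 𝒰.IsSmooth B')
    (ha : IsEquivariant a) (hb : IsEquivariant b) (hc : IsEquivariant c)
    (hl : ∀ x, φ' (a x) = b (φ x)) (hr : ∀ y, ψ' (b y) = c (ψ y))
    (x : ↥(LevelStr.H0 C)) :
    𝒰.H1map a ha (h.δ₀ 𝒰 hB x) = h'.δ₀ 𝒰 hB' (H0map c hc x) := by
  obtain ⟨y, hy⟩ := h.surjective (x : C)
  -- `d⁰ y` is a level cocycle of `B` killed by `ψ`
  have hdy : (d₀₁ B).hom y ∈ 𝒰.C₁ B := hB.coboundaries₁_le_C₁ ⟨y, rfl⟩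
  have hψdy : comp₁ ψ ((d₀₁ B).hom y) = 0 := by
    rw [comp₁_d₀₁ ψ h.equivariant_right y, hy]
    funext g
    rw [d₀₁_hom_apply, x.2 g, sub_self]
    rfl
  obtain ⟨w, hw, hφw⟩ := h.exists_comp₁_eq 𝒰 hdy hψdy
  have hwcoc : w ∈ cocycles₁ A := by
    apply h.mem_cocycles₁_of_comp₁
    rw [hφw]
    exact coboundaries₁_le_cocycles₁ B ⟨y, rfl⟩
  have e1 : h.δ₀ 𝒰 hB x = 𝒰.H1π A ⟨w, hwcoc, hw⟩ :=
    h.δ₀_eq 𝒰 hB x y hy ⟨w, hwcoc, hw⟩ hφw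
  have e2 : h'.δ₀ 𝒰 hB' (H0map c hc x) = 𝒰.H1π A' (𝒰.Z₁map a ha ⟨w, hwcoc, hw⟩) := by
    refine h'.δ₀_eq 𝒰 hB' (H0map c hc x) (b y) ?_ _ ?_
    · rw [hr, hy]
      rfl
    · show comp₁ φ' (comp₁ a w) = (d₀₁ B').hom (b y)
      rw [← comp₁_d₀₁ b hb y, ← hφw]
      funext g
      show φ' (a (w g)) = b (φ (w g))
      exact hl _
  rw [e1, e2, H1map_H1π]

end Connecting

section Corestriction

variable {Z E J C Z' E' J' C' : Rep.{u} k G} {p : ℕ}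
variable {ι : Z →ₗ[k] E} {pw : E →ₗ[k] E} {i : E →ₗ[k] J} {π : J →ₗ[k] C}
variable {ι' : Z' →ₗ[k] E'} {pw' : E' →ₗ[k] E'} {i' : E' →ₗ[k] J'} {π' : J' →ₗ[k] C'}
variable {aZ : Z →ₗ[k] Z'} {aE : E →ₗ[k] E'} {aJ : J →ₗ[k] J'} {aC : C →ₗ[k] C'}

/-- **Corestriction criterion.**  For a morphism of (S1)-data `(Z,E,J,C) → (Z',E',J',C')` (in the
coinduced model: the projection from level `L` to level `L₀`) and `c ∈ H⁰(C)`, the class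
`δ_K(δ₀ c) ∈ Ш²(Z)` dies in `H²(Z')` iff the image of `c` in `H⁰(C')` lies in
`im H⁰(J') + p • H⁰(C')`.  (Needs `H¹(J') = 0` at the target level.) -/
theorem map_δ₁_δ₀_eq_zero_iff
    (hK : ShortExact ι pw) (hI : ShortExact i π)
    (hK' : ShortExact ι' pw') (hpw' : ∀ e, pw' e = p • e) (hI' : ShortExact i' π')
    (hE : 𝒰.IsSmooth E) (hJ : 𝒰.IsSmooth J) (hE' : 𝒰.IsSmooth E') (hJ' : 𝒰.IsSmooth J')
    (haZ : IsEquivariant aZ) (haE : IsEquivariant aE) (haJ : IsEquivariant aJ)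
    (haC : IsEquivariant aC)
    (h1 : ∀ z, ι' (aZ z) = aE (ι z)) (h2 : ∀ e, pw' (aE e) = aE (pw e))
    (h3 : ∀ e, i' (aE e) = aJ (i e)) (h4 : ∀ j, π' (aJ j) = aC (π j))
    (hJ1' : ∀ x : 𝒰.H1 J', x = 0)
    (c : ↥(LevelStr.H0 C)) :
    𝒰.H2map aZ haZ (hK.δ₁ 𝒰 hE (hI.δ₀ 𝒰 hJ c)) = 0 ↔
      ∃ (j' : ↥(LevelStr.H0 J')) (c'' : ↥(LevelStr.H0 C')),
        H0map aC haC c = H0map π' hI'.equivariant_right j' + p • c'' := by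
  rw [δ₁_natural 𝒰 hK hK' hE hE' haZ haE haE h1 h2,
    δ₀_natural 𝒰 hI hI' hJ hJ' haE haJ haC h3 h4,
    Level.kummer_δ₁_eq_zero_iff 𝒰 hK' hpw' hE']
  constructor
  · rintro ⟨b, hb⟩
    obtain ⟨c'', rfl⟩ := Level.idele_δ₀_surjective 𝒰 hI' hJ' hJ1' b
    have : hI'.δ₀ 𝒰 hJ' (H0map aC haC c - p • c'') = 0 := by
      rw [map_sub, map_nsmul, hb, sub_self]
    obtain ⟨j', hj'⟩ := (Level.idele_δ₀_eq_zero_iff 𝒰 hI' hJ' _).1 this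
    exact ⟨j', c'', by rw [hj']; abel⟩
  · rintro ⟨j', c'', h⟩
    refine ⟨hI'.δ₀ 𝒰 hJ' c'', ?_⟩
    rw [h, map_add, map_nsmul]
    have : hI'.δ₀ 𝒰 hJ' (H0map π' hI'.equivariant_right j') = 0 :=
      (Level.idele_δ₀_eq_zero_iff 𝒰 hI' hJ' _).2 ⟨j', rfl⟩
    rw [this, zero_add]

end Corestriction

end Fermat.Agent.S55.S1_67.Natural
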