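/-
[46-S1 / P6] (helper67): (P6) FROM THE BINDERS OF SLOT A3 (class-module, `p`-primary shapes).

The finite-level class field theory lives on the TRUE class module `C` (`0 → C' → C → Cl → 0`,
`C' = J/E`, `Cl` prime-to-`p` torsion) and only on `p`-primary classes.  This file proves (P6) from
EXACTLY the binders of `S1Limit41.Formation.hasFormationDatum_of_class` /
`ClassFormation72.CSlim.hasFormationDatum_of_CSlim` (slot A3):

* `invCp : primary p (H²(C)) →+ T` injective, `hcompatp : invCp ∘ (φ ∘ π')_* = ∑_w invJp w`,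
  `hH1C : H¹(C)(p) = 0`,  `hinjp hsurjp` for `invJp w := invp w ∘ (locJ w)_p`,

plus the LOCAL structure of the `invJp w` that (P6) needs on top of A3:

* local groups `YE w`, localisations `locJ w : H²(J) →+ YE w`, `p`-primary local invariants
  `invp w : primary p (YE w) →+ T` (injective), local Kummer maps `κZ w` (injective) with the local
  Kummer squares `hcommZ`.

`p6_core_class` (generic group) and `p6_at_V_class` (over `G_ℚ`, open `V`, helper41's objects).
-/
import Fermat.Agent.S55.S1_67.P6Inst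
import Fermat.Agent.S55.S1Limit41.Formation

set_option autoImplicit false
set_option linter.style.haveILetI false
set_option linter.unusedSectionVars false
set_option maxHeartbeats 800000

open CategoryTheory groupCohomology Module ExtCitation

namespace Fermat.Agent.S55.S1_67.P6Class

open Fermat.Agent.S55.Profin15 Fermat.Agent.S55.Profin15.LevelStr
open Fermat.Agent.S55.S1_67.ScalarChange Fermat.Agent.S55.S1_67.P6Core
open Fermat.Agent.S55.S1_67.P6Gen
open Fermat.Agent.S55.ClassLimit72 Fermat.Agent.S55.PrimaryExt14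

section Generic

variable {N : Type} [Group N] (𝒩 : LevelStr N) {p : ℕ} [Fact p.Prime]
variable {k₀ : Type} [CommRing k₀]
variable {A : Rep.{0} (ZMod p) N} {Z E J C' C Cl : Rep.{0} k₀ N}
variable (φ : A ≃+ Z) (hφ : IsAddEquivariant φ.toAddMonoidHom)
variable {ι : Z →ₗ[k₀] E} {pw : E →ₗ[k₀] E} {i : E →ₗ[k₀] J} {π' : J →ₗ[k₀] C'}
variable {φc : C' →ₗ[k₀] C} {ψ : C →ₗ[k₀] Cl}
variable {W : Type} [Fintype W] {Nw : W → Type} [∀ w, Group (Nw w)]
variable {𝒱 : ∀ w, LevelStr (Nw w)} {f : ∀ w, Nw w →* N}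
variable (hf : ∀ w, LevelStr.IsContinuous (𝒱 w) 𝒩 (f w))
variable {T : Type} [AddCommGroup T]
variable {YE : W → Type} [∀ w, AddCommGroup (YE w)]
variable (κZ : ∀ w, (𝒱 w).H2 (Rep.res (f w) Z) →+ YE w) (locJ : ∀ w, 𝒩.H2 J →+ YE w)
variable (invp : ∀ w, primary p (YE w) →+ T) (invCp : primary p (𝒩.H2 C) →+ T)

/-- the local Kummer map on `A`-coefficients, with values in the `p`-primary part of `YE w` -/
noncomputable def κp (w : W) : (𝒱 w).H2 (Rep.res (f w) A) →+ primary p (YE w) :=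
  AddMonoidHom.codRestrict (κA (𝒱 := 𝒱) φ hφ κZ w) (primary p (YE w)) (fun η =>
    ⟨1, by rw [pow_one, ← map_nsmul, nsmul_local_eq_zero, map_zero]⟩)

omit [Fintype W] in
lemma coe_κp (w : W) (η : (𝒱 w).H2 (Rep.res (f w) A)) :
    ((κp φ hφ κZ w η : primary p (YE w)) : YE w) = κA (𝒱 := 𝒱) φ hφ κZ w η := rfl

include φ hφ in
/-- **(P6) at one level from the binders of slot A3 on the class module.** -/
theorem p6_core_class (hK : ShortExact ι pw) (hpw : ∀ e, pw e = p • e) (hI : ShortExact i π')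
    (hE : 𝒩.IsSmooth E) (hJ : 𝒩.IsSmooth J)
    (hJ1 : ∀ x : 𝒩.H1 J, x = 0)
    (hCl' : ShortExact φc ψ) (hC : 𝒩.IsSmooth C) (hCl : IsPrimeToP p Cl)
    (hH1C : ∀ (c : 𝒩.H1 C) (n : ℕ), p ^ n • c = 0 → c = 0)
    (hκZ : ∀ w, Function.Injective (κZ w))
    (hcommZ : ∀ w (x : 𝒩.H2 Z), κZ w ((hf w).res₂ Z x) =
      locJ w (𝒩.H2map i hI.equivariant_left (𝒩.H2map ι hK.equivariant_left x)))
    (hinvp : ∀ w (y : primary p (YE w)), invp w y = 0 → y = 0)
    (hinjp : ∀ x : primary p (𝒩.H2 J),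
      (∀ w, invp w (mapPrimary p (locJ w) x) = 0) → x = 0)
    (hsurjp : ∀ (t : W → T) (n : ℕ), (∀ w, (p ^ n) • t w = 0) →
      ∃ x : primary p (𝒩.H2 J), (p ^ n) • x = 0 ∧
        ∀ w, invp w (mapPrimary p (locJ w) x) = t w)
    (hinjCp : ∀ c : primary p (𝒩.H2 C), invCp c = 0 → c = 0)
    (hcompatp : ∀ x : primary p (𝒩.H2 J),
      invCp (mapPrimary p
        (𝒩.H2map (φc ∘ₗ π') (hI.equivariant_right.comp hCl'.equivariant_left)).toAddMonoidHom x) =
        ∑ w, invp w (mapPrimary p (locJ w) x))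
    (hT : ∀ t₀ t : T, p • t₀ = 0 → p • t = 0 → t₀ ≠ 0 → ∃ n : ℕ, t = n • t₀)
    (hfin1 : Finite (𝒩.H1 A)) :
    Module.Finite (ZMod p) (𝒩.H2 A) ∧
      ∑ w, finrank (ZMod p) ((𝒱 w).H2 (Rep.res (f w) A)) ≤
        finrank (ZMod p) (LinearMap.range (resTotal 𝒩 (A := A) hf)) + 1 := by
  -- total invariants from the `p`-primary ones
  obtain ⟨invJ, invC', hext, hinj, hsurj, hinjC, hcompat⟩ :=
    S1Limit41.Formation.exists_formation_inv_of_class 𝒩 p hCl' hI.equivariant_right hC hCl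
      (fun w => (invp w).comp (mapPrimary p (locJ w))) hinjp hsurjp invCp hinjCp hcompatp
  -- the local invariants on `H²(N_w, A)`
  have hlam : ∀ w, Function.Injective ((invp w).comp (κp (𝒱 := 𝒱) φ hφ κZ w)) := by
    intro w
    rw [injective_iff_map_eq_zero]
    intro η hη
    have h1 := hinvp w _ hη
    have h2 : κA (𝒱 := 𝒱) φ hφ κZ w η = 0 := by
      rw [← coe_κp, h1]
      rfl
    exact κA_injective φ hφ κZ hκZ w (by rw [h2, map_zero])
  have hfinY : ∀ w, Finite ((𝒱 w).H2 (Rep.res (f w) A)) := fun w =>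
    finite_of_injective_of_cyclic (p := p) ((invp w).comp (κp (𝒱 := 𝒱) φ hφ κZ w)) (hlam w)
      (nsmul_local_eq_zero w) hT
  have hloc : ∀ w (a : 𝒩.H2 A), ((invp w).comp (κp (𝒱 := 𝒱) φ hφ κZ w)) ((hf w).res₂ A a) =
      invJ w (𝒩.H2map i hI.equivariant_left (𝒩.H2map ι hK.equivariant_left
        (H2add 𝒩 φ.toAddMonoidHom hφ a))) := by
    intro w a
    set x := 𝒩.H2map i hI.equivariant_left (𝒩.H2map ι hK.equivariant_left
      (H2add 𝒩 φ.toAddMonoidHom hφ a)) with hx
    have hpa : p • a = 0 := by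
      rw [← Nat.cast_smul_eq_nsmul (ZMod p), ZMod.natCast_self, zero_smul]
    have hpx : (p ^ 1) • x = 0 := by
      rw [pow_one, hx, ← map_nsmul, ← map_nsmul, ← map_nsmul, hpa, map_zero, map_zero, map_zero]
    have h1 := hext w ⟨x, ⟨1, hpx⟩⟩
    show invp w (κp (𝒱 := 𝒱) φ hφ κZ w ((hf w).res₂ A a)) = invJ w x
    rw [h1]
    show invp w _ = invp w (mapPrimary p (locJ w) ⟨x, ⟨1, hpx⟩⟩)
    congr 1
    apply Subtype.ext
    rw [coe_κp, κA_res 𝒩 φ hφ hf κZ w a, hcommZ]
    rfl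
  have h1 := p6_core 𝒩 φ hφ hf invJ invC' (fun w => (invp w).comp (κp (𝒱 := 𝒱) φ hφ κZ w))
    hK hpw hI hE hJ hJ1 (S1Limit41.Transfer.hC1_of_class 𝒩 hCl' hC hCl hH1C)
  have h2 := h1 (fun y hy h => hinj y 1 (by rwa [pow_one]) h)
    (fun t ht => by
      obtain ⟨y, hy, hyt⟩ := hsurj t 1 (fun w => by rw [pow_one]; exact ht w)
      exact ⟨y, by rwa [pow_one] at hy, hyt⟩)
    (fun c hc h0 => hinjC c 1 (by rwa [pow_one]) h0) hcompat hlam hloc
  exact h2 hT hfin1 hfinY

end Generic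

/-! ### the instantiation over `G_ℚ`, `globalLevels S`, an open subgroup `V` fixing `μ_p` -/

section Concrete

open Fermat.Agent.S55.CD3 Fermat.Agent.S55.CS79.Restrict Fermat.Agent.S55.CS79.Primary
open Fermat.Agent.S55.GlobalMod94.JS Fermat.Agent.S55.ESRep20 Fermat.Agent.S55.ESKummer20
open Fermat.Agent.S55.QZ33 Fermat.Agent.S55.ShapiroLevel32
open Fermat.Agent.S55.S1Limit41.Global Fermat.Agent.S55.S1Limit41.Transfer
open Fermat.Agent.S55.S1_67.P6Inst

variable {p : ℕ} [Fact p.Prime] (S : Finset Nat.Primes) (V : Subgroup GQ41)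
  (hV : IsOpenSub (globalLevels S) V)
variable {C Cl : Rep.{0} ℤ GQ41}
  {φ : @LinearMap ℤ ℤ _ _ (RingHom.id ℤ) (CSp S) C _ _ (CSp S).hV2 C.hV2}
  {ψ : @LinearMap ℤ ℤ _ _ (RingHom.id ℤ) C Cl _ _ C.hV2 Cl.hV2}
  {a : @LinearMap ℤ ℤ _ _ (RingHom.id ℤ) (JSp S) C _ _ (JSp S).hV2 C.hV2}
variable {W : Type} [Fintype W] {Nw : W → Type} [∀ w, Group (Nw w)]
variable {𝒱 : ∀ w, LevelStr (Nw w)} {f : ∀ w, Nw w →* ↥V}
variable (hf : ∀ w, LevelStr.IsContinuous (𝒱 w) (levV S V hV) (f w))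
variable {YE : W → Type} [∀ w, AddCommGroup (YE w)]
variable (κ : ∀ w, (𝒱 w).H2 (Rep.res (f w) (ZV V p)) →+ YE w)
variable (locJ : ∀ w, (levV S V hV).H2 (JV S V) →+ YE w)
variable (invp : ∀ w, primary p (YE w) →+ QZ)
variable (invCp : primary p ((levV S V hV).H2 (Rep.res V.subtype C)) →+ QZ)

/-- **(P6) over an open subgroup `V` fixing `μ_p`, for an arbitrary finite family of local groups,
from the binders of slot A3** (`S1Limit41.Formation.hasFormationDatum_of_class`) **and the local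
structure** (`YE κ locJ invp` with the local Kummer squares). -/
theorem p6_at_V_class (hpS : pPrime p ∈ S) (hμV : ∀ σ ∈ V, cycloChar p σ = 1)
    (hCl' : ShortExact (A := CSp S) (B := C) (C := Cl) φ ψ) (hC : (globalLevels S).IsSmooth C)
    (hCl : IsPrimeToP p Cl) (haeq : IsEquivariant (A := JSp S) (B := C) a)
    (ha : ∀ j : JSp S, φ ((πCS S).hom j) = a j)
    (hκ : ∀ w, Function.Injective (κ w))
    (hcomm : ∀ (w : W) (x : (levV S V hV).H2 (ZV V p)),
      κ w ((hf w).res₂ (ZV V p) x) =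
        locJ w ((levV S V hV).H2map _ (ideleV S V (nonempty_of_mem S hpS)).equivariant_left
          ((levV S V hV).H2map _ (kummerV S V hpS).equivariant_left x)))
    (hinvp : ∀ w (y : primary p (YE w)), invp w y = 0 → y = 0)
    (hinjp : ∀ x : primary p ((levV S V hV).H2 (JV S V)),
      (∀ w, invp w (mapPrimary p (locJ w) x) = 0) → x = 0)
    (hsurjp : ∀ (t : W → QZ) (n : ℕ), (∀ w, (p ^ n) • t w = 0) →
      ∃ x : primary p ((levV S V hV).H2 (JV S V)), (p ^ n) • x = 0 ∧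
        ∀ w, invp w (mapPrimary p (locJ w) x) = t w)
    (hinjCp : ∀ c : primary p ((levV S V hV).H2 (Rep.res V.subtype C)), invCp c = 0 → c = 0)
    (hcompatp : ∀ x : primary p ((levV S V hV).H2 (JV S V)),
      invCp (mapPrimary p ((levV S V hV).H2map (resLin (A := JSp S) (B := C) V.subtype a)
        (haeq.res V.subtype)).toAddMonoidHom x) = ∑ w, invp w (mapPrimary p (locJ w) x))
    (hH1C : H1PrimaryVanishes (levV S V hV) p (Rep.res V.subtype C))
    (hfin1 : Finite ((levV S V hV).H1 (triv (ZMod p) ↥V))) :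
    Module.Finite (ZMod p) ((levV S V hV).H2 (triv (ZMod p) ↥V)) ∧
      ∑ w, finrank (ZMod p) ((𝒱 w).H2 (Rep.res (f w) (triv (ZMod p) ↥V))) ≤
        finrank (ZMod p) (LinearMap.range
          (P6Core.resTotal (levV S V hV) (A := triv (ZMod p) ↥V) hf)) + 1 := by
  obtain ⟨ζ, hζ⟩ := exists_primitiveRoot p
  have hres := hCl'.res V.subtype
  have hsm := isSmooth_res hC hV
  have hI := ideleV S V (nonempty_of_mem S hpS)
  have hcompatp' : ∀ x : primary p ((levV S V hV).H2 (JV S V)),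
      invCp (mapPrimary p ((levV S V hV).H2map
        (resLin (A := CSp S) (B := C) V.subtype φ ∘ₗ
          resLin (A := JSp S) (B := CSp S) V.subtype (πCS S).hom.toLinearMap)
        (hI.equivariant_right.comp hres.equivariant_left)).toAddMonoidHom x) =
        ∑ w, invp w (mapPrimary p (locJ w) x) := by
    intro x
    rw [← hcompatp x]
    congr 1
    apply Subtype.ext
    refine S1Limit41.Formation.H2map_congr' (levV S V hV) _ _ ?_ x.1
    exact DFunLike.ext _ _ fun j => ha j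
  have h1 := p6_core_class (levV S V hV)
    (A := triv (ZMod p) ↥V) (Z := ZV V p) (E := EV S V) (J := JV S V) (C' := CV S V)
    (C := Rep.res V.subtype C) (Cl := Rep.res V.subtype Cl)
    (muTrivV V ζ hζ) (muTrivV_isAddEquivariant V ζ hζ hμV) hf (T := QZ) (YE := YE)
    κ locJ invp invCp
    (kummerV S V hpS) (kummerV_pw S V) hI
    (EV_isSmooth S V hV) (JV_isSmooth S V hV)
    (GlobalMod94.H1.H1_JSp_eq_zero S V hV) hres hsm hCl
    (fun c n hc => hH1C c ⟨n, hc⟩) hκ hcomm hinvp hinjp hsurjp hinjCp hcompatp'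
    (QZ_cyclic p) hfin1
  exact h1

end Concrete

end Fermat.Agent.S55.S1_67.P6Class
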