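/-
[46-S1 / P6] (helper67): `P6Class.p6_at_V_class` at the CONCRETE class module
`C_S = CSlim S (diagJ S)` (helper79/helper72), binder-for-binder parallel to
`ClassFormation72.CSlim.hasFormationDatum_of_CSlim` (slot A3): whoever can call that theorem with
`invJp w := invp w ∘ (locJ w)_p` can call this one with the additional LOCAL structure
(`YE κ locJ invp`, local Kummer squares) and gets (P6) over `V` for the family `f w`.
-/
import Fermat.Agent.S55.S1_67.P6Class
import Fermat.Agent.S55.ClassFormation72.CSlim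

set_option autoImplicit false
set_option linter.style.haveILetI false
set_option linter.unusedSectionVars false
set_option maxHeartbeats 800000

open CategoryTheory groupCohomology Module ExtCitation

namespace Fermat.Agent.S55.S1_67.P6CSlim

open Fermat.Agent.S55.Profin15 Fermat.Agent.S55.Profin15.LevelStr Fermat.Agent.S55.CD3
open Fermat.Agent.S55.GlobalMod94.JS Fermat.Agent.S55.ESRep20 Fermat.Agent.S55.ESKummer20
open Fermat.Agent.S55.CS79.DivLimit Fermat.Agent.S55.CS79.Restrict Fermat.Agent.S55.CS79.Primary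
open Fermat.Agent.S55.ClassData72 Fermat.Agent.S55.ClassFormation72 Fermat.Agent.S55.QZ33
open Fermat.Agent.S55.PrimaryExt14 Fermat.Agent.S55.ShapiroLevel32
open Fermat.Agent.S55.S1Limit41.Global

variable {p : ℕ} [Fact p.Prime] {S : Finset Nat.Primes}
variable (V : Subgroup GQ41) (hV : IsOpenSub (globalLevels S) V)
variable {W : Type} [Fintype W] {Nw : W → Type} [∀ w, Group (Nw w)]
variable {𝒱 : ∀ w, LevelStr (Nw w)} {f : ∀ w, Nw w →* ↥V}
variable (hf : ∀ w, LevelStr.IsContinuous (𝒱 w) (levV S V hV) (f w))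
variable {YE : W → Type} [∀ w, AddCommGroup (YE w)]
variable (κ : ∀ w, (𝒱 w).H2 (Rep.res (f w) (ZV V p)) →+ YE w)
variable (locJ : ∀ w, (levV S V hV).H2 (JV S V) →+ YE w)
variable (invp : ∀ w, primary p (YE w) →+ QZ)
variable (invCp : primary p ((CD3.restrictLevels (globalLevels S) V hV).H2
      (Rep.res V.subtype (CSl S))) →+ QZ)

/-- **(P6) over `V` from slot A3 at the concrete class module `C_S`** + the local structure. -/
theorem p6_at_V_CSlim (hpS : pPrime p ∈ S) (hμV : ∀ σ ∈ V, cycloChar p σ = 1)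
    (hκ : ∀ w, Function.Injective (κ w))
    (hcomm : ∀ (w : W) (x : (levV S V hV).H2 (ZV V p)),
      κ w ((hf w).res₂ (ZV V p) x) =
        locJ w ((levV S V hV).H2map _ (ideleV S V (nonempty_of_mem S hpS)).equivariant_left
          ((levV S V hV).H2map _ (kummerV S V hpS).equivariant_left x)))
    (hinvp : ∀ w (y : primary p (YE w)), invp w y = 0 → y = 0)
    (hinjp : ∀ x : primary p ((levV S V hV).H2 (JV S V)),
      (∀ w, invp w (mapPrimary p (locJ w) x) = 0) → x = 0)
    (hsurjp : ∀ (t : W → QZ) (n : ℕ), (∀ w, (p ^ n) • t w = 0) →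
      ∃ x : primary p ((levV S V hV).H2 (JV S V)), (p ^ n) • x = 0 ∧
        ∀ w, invp w (mapPrimary p (locJ w) x) = t w)
    (hinjCp : ∀ c : primary p ((CD3.restrictLevels (globalLevels S) V hV).H2
      (Rep.res V.subtype (CSl S))), invCp c = 0 → c = 0)
    (hcompatp : ∀ x : primary p ((levV S V hV).H2 (JV S V)),
      invCp (mapPrimary p ((CD3.restrictLevels (globalLevels S) V hV).H2map (aV S V)
        (aV_equivariant S V)).toAddMonoidHom x) = ∑ w, invp w (mapPrimary p (locJ w) x))
    (hH1C : H1PrimaryVanishes (CD3.restrictLevels (globalLevels S) V hV) p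
      (Rep.res V.subtype (CSl S)))
    (hfin1 : Finite ((levV S V hV).H1 (triv (ZMod p) ↥V))) :
    Module.Finite (ZMod p) ((levV S V hV).H2 (triv (ZMod p) ↥V)) ∧
      ∑ w, finrank (ZMod p) ((𝒱 w).H2 (Rep.res (f w) (triv (ZMod p) ↥V))) ≤
        finrank (ZMod p) (LinearMap.range
          (P6Core.resTotal (levV S V hV) (A := triv (ZMod p) ↥V) hf)) + 1 :=
  P6Class.p6_at_V_class S V hV hf κ locJ invp invCp hpS hμV (shortExact S) (isSmooth_CSl S)
    (isPrimeToP_ClS S hpS) (classData S).equivariant_a (phi_πCS S) hκ hcomm hinvp hinjp hsurjp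
    hinjCp hcompatp hH1C hfin1

end Fermat.Agent.S55.S1_67.P6CSlim
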