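/-
[46-S1 / P6] (helper67): **the `p`-primary route to (P6) at helper94's family of places**
`W := OpenJS.PlaceV S V hV`, `f w := Mackey.twHom (rS S w.1) V w.2`.

`P6CSlim.p6_at_V_CSlim` applied with
* the local Kummer squares of helper32 (`KummerSq32.kumW`, `kumW_injective`, `hcomm`),
* the honest local invariants of helper94 (`JSideUncond.invBrU`, `JSideTotal.hinjp_U`, `hsurjp_U`)
  twisted by a family `a w : ℚ/ℤ →+ ℚ/ℤ` of injective, `pⁿ`-torsion-surjective endomorphisms
  (helper72 `TwistFamily72.epsAt`; `a := fun _ => id` untwisted),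
* the invariant `invCp` of the TRUE class module `C_S` on `p`-primary classes, injective and equal
  to the twisted sum of the local invariants on the `J_S`-factor (= the body of helper99's
  `LimDesc99.A3.Core p S V hV a`, slot A3-core),
* `H¹(V, C_S)(p) = 0` (helper77 `Leaf33Final.h1PrimaryVanishes_CS_res`, unconditional).

Output: the (P6) count over `V` at the family `PlaceV` (= helper32's `PlaceVCount p S V hV`,
literally), with NO projection to total invariants in between.
-/
import Fermat.Agent.S55.S1_67.P6CSlim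
import Fermat.Agent.S55.KummerSq32.Inj
import Fermat.Agent.S55.GlobalMod94.JSideTotal
import Fermat.Agent.S55.TwistFamily72
import Fermat.Agent.S55.ClassGlue14
import Fermat.Agent.S55.Adapt77.Leaf33Final
import Fermat.Agent.S55.CountWire23.FinH1

set_option autoImplicit false
set_option linter.style.haveILetI false
set_option linter.unusedSectionVars false
set_option maxHeartbeats 800000

open CategoryTheory groupCohomology Module ExtCitation

namespace Fermat.Agent.S55.S1_67.P6PlaceV

open Fermat.Agent.S55.Profin15 Fermat.Agent.S55.Profin15.LevelStr Fermat.Agent.S55.CD3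
open Fermat.Agent.S55.Idele73 Fermat.Agent.S55.Idele73.Basic
open Fermat.Agent.S55.CS79.ClassSeq Fermat.Agent.S55.CS79.DivLimit
open Fermat.Agent.S55.GlobalMod94.JS Fermat.Agent.S55.GlobalMod94.OpenJS
open Fermat.Agent.S55.GlobalMod94.OpenDatum
open Fermat.Agent.S55.GlobalMod94.JSideUncond Fermat.Agent.S55.GlobalMod94.JSideTotal
open Fermat.Agent.S55.ESRep20 Fermat.Agent.S55.ESKummer20
open Fermat.Agent.S55.ClassData72 Fermat.Agent.S55.QZ33
open Fermat.Agent.S55.PrimaryExt14 Fermat.Agent.S55.ShapiroLevel32
open Fermat.Agent.S55.S1Limit41.Global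

variable {p : ℕ} [Fact p.Prime] (S : Finset Nat.Primes)
variable (V : Subgroup GQ41) (hV : IsOpenSub (globalLevels S) V)

/-- the twisted local invariant at the place `w`, on the `p`-primary part of `Br_w` -/
noncomputable def invpA (p : ℕ) (a : PlaceV S V hV → (QZ →+ QZ)) (w : PlaceV S V hV) :
    primary p (BrW S V hV w) →+ QZ :=
  (a w).comp ((invBrU S V hV w).toAddMonoidHom.comp (primary p (BrW S V hV w)).subtype)

theorem invpA_apply (a : PlaceV S V hV → (QZ →+ QZ)) (w : PlaceV S V hV)
    (y : primary p (BrW S V hV w)) :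
    invpA S V hV p a w y = a w (invBrU S V hV w (y : BrW S V hV w)) := rfl

theorem invpA_loc (a : PlaceV S V hV → (QZ →+ QZ)) (w : PlaceV S V hV)
    (x : primary p ((levV S V hV).H2 (JV S V))) :
    invpA S V hV p a w (mapPrimary p (locW S V hV w).toAddMonoidHom x) =
      (a w).comp (invJpU S V hV p w) x := rfl

/-- `a_* = proj_* ∘ inl_*` on `H²(V, J_S)` (`a : J_S → C_S`, `j ↦ [(j, 0)]`) -/
theorem H2map_aV_eq (x : (levV S V hV).H2 (JV S V)) :
    (CD3.restrictLevels (globalLevels S) V hV).H2map (ClassFormation72.aV S V)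
        (ClassFormation72.aV_equivariant S V) x =
      (levV S V hV).H2map
          (resLin (A := prodRep (JSp S) (ISlim S)) (B := ClassData72.CSl S) V.subtype
            (ClassGlue14.projLin S))
          ((ClassGlue14.projLin_equivariant S).res V.subtype)
        ((levV S V hV).H2map
          (resLin (A := JSp S) (B := prodRep (JSp S) (ISlim S)) V.subtype (ClassGlue14.inlLin S))
          ((ClassGlue14.inlLin_equivariant S).res V.subtype) x) :=
  (S1Limit41.Formation.H2map_congr' (levV S V hV) (ClassFormation72.aV_equivariant S V)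
    (((ClassGlue14.inlLin_equivariant S).res V.subtype).comp
      ((ClassGlue14.projLin_equivariant S).res V.subtype)) rfl x).trans
    (H2map_comp (levV S V hV) ((ClassGlue14.inlLin_equivariant S).res V.subtype)
      ((ClassGlue14.projLin_equivariant S).res V.subtype) x)

/-- **(P6) over `V` at the family of places `PlaceV S V hV`, from the `p`-primary core of slot A3.**
The conclusion is helper32's `KummerSq32.PlaceVCount p S V hV`, literally. -/
theorem placeVCount_of_core (hpS : pPrime p ∈ S) (hp2 : p ≠ 2)
    (hμV : ∀ σ ∈ V, cycloChar p σ = 1)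
    (a : PlaceV S V hV → (QZ →+ QZ)) (ha : ∀ w, Function.Injective (a w))
    (ha' : ∀ (w : PlaceV S V hV) (t : QZ) (n : ℕ), p ^ n • t = 0 →
      ∃ s : QZ, p ^ n • s = 0 ∧ a w s = t)
    (invCp : primary p ((levV S V hV).H2 (ClassGlue14.CtV S V)) →+ QZ)
    (hinjCp : ∀ c : primary p ((levV S V hV).H2 (ClassGlue14.CtV S V)), invCp c = 0 → c = 0)
    (hcore : ∀ x : primary p ((levV S V hV).H2 (JV S V)),
      invCp (mapPrimary p ((levV S V hV).H2map
          (resLin (A := prodRep (JSp S) (ISlim S)) (B := ClassData72.CSl S) V.subtype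
            (ClassGlue14.projLin S))
          ((ClassGlue14.projLin_equivariant S).res V.subtype)).toAddMonoidHom
        (mapPrimary p ((levV S V hV).H2map
          (resLin (A := JSp S) (B := prodRep (JSp S) (ISlim S)) V.subtype (ClassGlue14.inlLin S))
          ((ClassGlue14.inlLin_equivariant S).res V.subtype)).toAddMonoidHom x)) =
        ∑ w, a w (invBrU S V hV w (locW S V hV w
          (x : (levV S V hV).H2 (JV S V)))))
    (hfin1 : Finite ((levV S V hV).H1 (triv (ZMod p) ↥V))) :
    Module.Finite (ZMod p) ((levV S V hV).H2 (triv (ZMod p) ↥V)) ∧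
      ∑ w : PlaceV S V hV, finrank (ZMod p) ((𝒱S S V w.1 (w.2 : GQ41)).H2
          (Rep.res (Mackey.twHom (rS S w.1) V (w.2 : GQ41)) (triv (ZMod p) ↥V))) ≤
        finrank (ZMod p) (LinearMap.range
          (P6Core.resTotal (levV S V hV) (A := triv (ZMod p) ↥V)
            (fun w : PlaceV S V hV => hcontS S V hV w.1 (w.2 : GQ41)))) + 1 := by
  have hp : p.Prime := Fact.out
  have hpS' : (⟨p, hp⟩ : Nat.Primes) ∈ S := hpS
  -- the J-side, twisted
  have hinjp : ∀ x : primary p ((levV S V hV).H2 (JV S V)),
      (∀ w, invpA S V hV p a w (mapPrimary p (locW S V hV w).toAddMonoidHom x) = 0) → x = 0 :=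
    fun x hx => TwistFamily72.twist_hinjp (invJpU S V hV p) a ha (hinjp_U S V hV p) x hx
  have hsurjp : ∀ (t : PlaceV S V hV → QZ) (n : ℕ), (∀ w, (p ^ n) • t w = 0) →
      ∃ x : primary p ((levV S V hV).H2 (JV S V)), (p ^ n) • x = 0 ∧
        ∀ w, invpA S V hV p a w (mapPrimary p (locW S V hV w).toAddMonoidHom x) = t w :=
    fun t n ht => TwistFamily72.twist_hsurjp (invJpU S V hV p) a ha'
      (hsurjp_U S V hV hp hpS') t n ht
  have hinvp : ∀ w (y : primary p (BrW S V hV w)), invpA S V hV p a w y = 0 → y = 0 := by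
    intro w y hy
    rw [invpA_apply] at hy
    have h1 : invBrU S V hV w (y : BrW S V hV w) = 0 := ha w (by rw [hy, map_zero])
    have h2 : (y : BrW S V hV w) = 0 := (invBrU S V hV w).injective (by rw [h1, map_zero])
    exact Subtype.ext h2
  -- the class side: `a_* = proj_* ∘ inl_*`
  have hcompatp : ∀ x : primary p ((levV S V hV).H2 (JV S V)),
      invCp (mapPrimary p ((CD3.restrictLevels (globalLevels S) V hV).H2map
        (ClassFormation72.aV S V) (ClassFormation72.aV_equivariant S V)).toAddMonoidHom x) =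
        ∑ w, invpA S V hV p a w (mapPrimary p (locW S V hV w).toAddMonoidHom x) := by
    intro x
    refine (congrArg invCp ?_).trans ((hcore x).trans ?_)
    · exact Subtype.ext (H2map_aV_eq S V hV (x : (levV S V hV).H2 (JV S V)))
    · exact Finset.sum_congr rfl fun w _ => rfl
  have hH1C := Adapt77.Leaf33Final.h1PrimaryVanishes_CS_res hpS hp2 V hV hμV
  exact @P6CSlim.p6_at_V_CSlim p _ S V hV (PlaceV S V hV) _
    (fun w => ↥(Mackey.twSub (rS S w.1) V (w.2 : GQ41))) (fun _ => inferInstance)
    (fun w => 𝒱S S V w.1 (w.2 : GQ41))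
    (fun w => Mackey.twHom (rS S w.1) V (w.2 : GQ41))
    (fun w : PlaceV S V hV => hcontS S V hV w.1 (w.2 : GQ41))
    (fun w => BrW S V hV w) (fun _ => inferInstance)
    (fun w => KummerSq32.kumW S V hV hpS w)
    (fun w => (locW S V hV w).toAddMonoidHom)
    (invpA S V hV p a) invCp hpS hμV
    (fun w => KummerSq32.kumW_injective S V hV hpS w)
    (fun w x => KummerSq32.hcomm S V hV hpS w x)
    hinvp hinjp hsurjp hinjCp hcompatp hH1C hfin1

end Fermat.Agent.S55.S1_67.P6PlaceV
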