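/-
[46-S1 / P6] (helper67): the (P6) count is invariant under reindexing the family of local groups
and componentwise linear equivalences commuting with the total localisation maps.
Pure linear algebra (Mathlib only).
-/
import Mathlib

set_option autoImplicit false

open Module

namespace Fermat.Agent.S55.S1_67.Reindex

variable {k : Type*} [Field k] {X : Type*} [AddCommGroup X] [Module k X]
variable {W W' : Type*} [Fintype W] [Fintype W'] (e : W' ≃ W)
variable {Y : W → Type*} {Y' : W' → Type*}
variable [∀ w, AddCommGroup (Y w)] [∀ w, Module k (Y w)]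
variable [∀ w, AddCommGroup (Y' w)] [∀ w, Module k (Y' w)]
variable (L : X →ₗ[k] ∀ w, Y w) (L' : X →ₗ[k] ∀ w', Y' w')
variable (Θ : ∀ w', Y' w' ≃ₗ[k] Y (e w'))

omit [Fintype W] [Fintype W'] in
/-- the two total maps have the same kernel -/
theorem ker_eq (hΘ : ∀ x w', Θ w' (L' x w') = L x (e w')) :
    LinearMap.ker L' = LinearMap.ker L := by
  ext x
  rw [LinearMap.mem_ker, LinearMap.mem_ker]
  constructor
  · intro hx
    funext w
    obtain ⟨w', rfl⟩ := e.surjective w
    rw [← hΘ x w', hx]
    exact map_zero _
  · intro hx
    funext w'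
    have h := hΘ x w'
    rw [hx] at h
    exact (Θ w').map_eq_zero_iff.1 h

omit [Fintype W] [Fintype W'] in
/-- the ranges of the two total maps have the same dimension -/
theorem finrank_range_eq (hΘ : ∀ x w', Θ w' (L' x w') = L x (e w')) :
    finrank k (LinearMap.range L') = finrank k (LinearMap.range L) := by
  rw [← LinearEquiv.finrank_eq L'.quotKerEquivRange, ← LinearEquiv.finrank_eq L.quotKerEquivRange]
  exact LinearEquiv.finrank_eq (Submodule.quotEquivOfEq _ _ (ker_eq e L L' Θ hΘ))

include e Θ in
/-- the sums of the dimensions of the local factors agree -/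
theorem sum_finrank_eq : ∑ w', finrank k (Y' w') = ∑ w, finrank k (Y w) := by
  rw [← Fintype.sum_equiv e (fun w' => finrank k (Y (e w'))) (fun w => finrank k (Y w))
    (fun _ => rfl)]
  exact Finset.sum_congr rfl fun w' _ => LinearEquiv.finrank_eq (Θ w')

/-- **the (P6) count transports along a reindexing and componentwise equivalences** -/
theorem count_reindex (hΘ : ∀ x w', Θ w' (L' x w') = L x (e w'))
    (h : ∑ w, finrank k (Y w) ≤ finrank k (LinearMap.range L) + 1) :
    ∑ w', finrank k (Y' w') ≤ finrank k (LinearMap.range L') + 1 := by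
  rw [sum_finrank_eq e Θ, finrank_range_eq e L L' Θ hΘ]
  exact h

end Fermat.Agent.S55.S1_67.Reindex
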